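import Fermat.Agent.S21
import Fermat.Agent.S21.Interfaces
import Fermat.Agent.S29.Integral
import Fermat.Agent.Jac.Per

/-!
# P-LR, LR-ES item (v) INPUT (helper36): the period of a normalised eigenform

For a normalised eigenform `f` of level `N`:
* `periodMap N f` is a parabolic hom (`h36e_input_parabolic`),
* `periodMap N f ≠ 0` (`h36e_input_ne_zero`; the period map is injective,
  `h36e_periodMap_injective`),
* `periodMap N f` is an eigenvector of the cohomological Hecke operator `T_ℓ` (`ℓ ∤ N`) with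
  eigenvalue `a_ℓ(f)` (`h36e_input_hecke`).

Also: linearity of the period map in usable form (`h36e_periodMap_add`, `h36e_periodMap_smul`,
`h36e_periodMap_sub`, `h36e_periodMap_zero`).
-/

set_option autoImplicit false

open ModularCurve ModularCurve.Period CongruenceSubgroup ModularFormClass

namespace Fermat.Agent.LR.ES

variable (N : ℕ) [NeZero N]

theorem h36e_periodMap_add (f g : CuspForm (Gamma0 N) 2) :
    periodMap N (f + g) = periodMap N f + periodMap N g := by
  obtain ⟨pml, hpml⟩ := Fermat.Agent.S21.existsPeriodMapLinear N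
  rw [← hpml, ← hpml, ← hpml, map_add]

theorem h36e_periodMap_smul (c : ℂ) (f : CuspForm (Gamma0 N) 2) :
    periodMap N (c • f) = c • periodMap N f := by
  obtain ⟨pml, hpml⟩ := Fermat.Agent.S21.existsPeriodMapLinear N
  rw [← hpml, ← hpml, map_smul]

theorem h36e_periodMap_zero : periodMap N (0 : CuspForm (Gamma0 N) 2) = 0 := by
  obtain ⟨pml, hpml⟩ := Fermat.Agent.S21.existsPeriodMapLinear N
  rw [← hpml, map_zero]

theorem h36e_periodMap_sub (f g : CuspForm (Gamma0 N) 2) :
    periodMap N (f - g) = periodMap N f - periodMap N g := by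
  obtain ⟨pml, hpml⟩ := Fermat.Agent.S21.existsPeriodMapLinear N
  rw [← hpml, ← hpml, ← hpml, map_sub]

/-- the period map is injective (Eichler–Shimura). -/
theorem h36e_periodMap_eq_zero {f : CuspForm (Gamma0 N) 2} (h : periodMap N f = 0) : f = 0 := by
  obtain ⟨pml, hpml, hpair⟩ := periodHomPair_def N (Fermat.Agent.S21.existsPeriodMapLinear N)
  have h0 : periodHomPair N (f, f) = 0 := by
    rw [hpair]
    simp only [LinearMap.coprod_apply, LinearMap.comp_apply, hpml, h, map_zero, add_zero]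
  have hinj := (Fermat.Agent.S21.result N).1
  have h1 : (f, f) = (0 : CuspForm (Gamma0 N) 2 × CuspForm (Gamma0 N) 2) := by
    apply hinj
    rw [h0, map_zero]
  exact congrArg Prod.fst h1

theorem h36e_periodMap_injective : Function.Injective (periodMap N) := by
  intro f g h
  have h1 : periodMap N (f - g) = 0 := by
    rw [h36e_periodMap_sub, h, sub_self]
  exact sub_eq_zero.1 (h36e_periodMap_eq_zero N h1)

variable {N}

theorem h36e_input_parabolic (f : CuspForm (Gamma0 N) 2) :
    periodMap N f ∈ parabolicHoms ℂ (Gamma0 N) ℂ :=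
  Fermat.Agent.S21.periodMap_mem_parabolicHoms N f

theorem h36e_input_ne_zero {f : CuspForm (Gamma0 N) 2} (hf : f.IsNormalizedEigenform) :
    periodMap N f ≠ 0 := fun h =>
  Fermat.Agent.S29.Integral.ne_zero hf (h36e_periodMap_eq_zero N h)

theorem h36e_input_hecke {f : CuspForm (Gamma0 N) 2} (hf : f.IsNormalizedEigenform)
    {ℓ : ℕ} (hℓ : ℓ.Prime) (hℓN : ¬ ℓ ∣ N) :
    Fermat.Agent.Jac.IsCohHeckeAdd N ℓ (periodMap N f) (qCoeff ⇑f ℓ • periodMap N f) := by
  have h := Fermat.Agent.Jac.periodHecke N ℓ hℓ hℓN f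
  rw [Fermat.Agent.S29.Integral.heckeTLin_apply hf hℓ hℓN, h36e_periodMap_smul] at h
  exact h

/-- **LR-ES (v), INPUT.** -/
theorem h36e_input {f : CuspForm (Gamma0 N) 2} (hf : f.IsNormalizedEigenform) :
    periodMap N f ∈ parabolicHoms ℂ (Gamma0 N) ℂ ∧ periodMap N f ≠ 0 ∧
      ∀ (ℓ : ℕ), ℓ.Prime → ¬ ℓ ∣ N →
        Fermat.Agent.Jac.IsCohHeckeAdd N ℓ (periodMap N f) (qCoeff ⇑f ℓ • periodMap N f) :=
  ⟨h36e_input_parabolic f, h36e_input_ne_zero hf, fun _ hℓ hℓN => h36e_input_hecke hf hℓ hℓN⟩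

end Fermat.Agent.LR.ES
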