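import Mathlib
import Fermat.Prelude.Def_ModularForm_HeckeOperatorForms
import Fermat.Agent.S16.WeightTwo

/-!
# LR-ES, leaf TR (helper77): the two trace maps `S₂(Γ₀(Nq)) → S₂(Γ₀(N))` in explicit form

`q` prime, `q ∤ N`, `x y : ℤ` with `q x - N y = 1`, `W = [[q x, y], [N q, q]]` (Atkin-Lehner
matrix at `q`, determinant `q`).

* `h77t_al`  : the Atkin-Lehner involution `g ↦ g ∣[2] W` on `S₂(Γ₀(Nq))`, `w (w g) = g`;
* `h77t_tr1` : `Tr₁ g = g + U_q (g ∣[2] W) ∈ S₂(Γ₀(N))`   (trace along `Γ₀(Nq) ≤ Γ₀(N)`);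
* `h77t_tr2` : `Tr₂ g = g ∣[2] W + U_q g ∈ S₂(Γ₀(N))`     (`= Tr₁ (w g)`).
-/

set_option autoImplicit false
set_option linter.style.haveILetI false

namespace Fermat.Agent.LR

open UpperHalfPlane ModularForm Matrix Matrix.SpecialLinearGroup CongruenceSubgroup
open Fermat.Agent.S23 Fermat.Agent.S16
open scoped MatrixGroups ModularForm

/-! ## Membership in `Γ₀` -/

theorem h77t_mem_Gamma0_iff (M : ℕ) (γ : SL(2, ℤ)) :
    γ ∈ Gamma0 M ↔ (M : ℤ) ∣ γ 1 0 := by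
  rw [Gamma0_mem, ZMod.intCast_zmod_eq_zero_iff_dvd]

theorem h77t_det_eq (γ : SL(2, ℤ)) : γ 0 0 * γ 1 1 - γ 0 1 * γ 1 0 = 1 := by
  have := γ.det_coe
  rw [Matrix.det_fin_two] at this
  exact this

/-! ## The Atkin-Lehner matrix -/

/-- The Atkin-Lehner matrix `W = [[q x, y], [N q, q]]` at `q` for the level `N q`. -/
noncomputable def h77t_W (N q : ℕ) (x y : ℤ) (hq : q ≠ 0) (hxy : (q : ℤ) * x - N * y = 1) :
    GL (Fin 2) ℝ :=
  Matrix.GeneralLinearGroup.mkOfDetNeZero !![(q : ℝ) * x, y; (N : ℝ) * q, q] (by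
    rw [Matrix.det_fin_two_of]
    have h1 : ((q : ℝ) * x - N * y) = 1 := by exact_mod_cast hxy
    have h2 : (q : ℝ) * x * q - y * ((N : ℝ) * q) = q * ((q : ℝ) * x - N * y) := by ring
    rw [h2, h1, mul_one]
    exact_mod_cast hq)

variable {N q : ℕ} {x y : ℤ} (hq : q ≠ 0) (hxy : (q : ℤ) * x - N * y = 1)

@[simp] theorem h77t_val_W :
    ((h77t_W N q x y hq hxy : GL (Fin 2) ℝ) : Matrix (Fin 2) (Fin 2) ℝ) =
      !![(q : ℝ) * x, y; (N : ℝ) * q, q] := rfl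

theorem h77t_det_W : ((h77t_W N q x y hq hxy).det : ℝ) = q := by
  rw [Matrix.GeneralLinearGroup.val_det_apply, h77t_val_W, Matrix.det_fin_two_of]
  have h1 : ((q : ℝ) * x - N * y) = 1 := by exact_mod_cast hxy
  have h2 : (q : ℝ) * x * q - y * ((N : ℝ) * q) = q * ((q : ℝ) * x - N * y) := by ring
  rw [h2, h1, mul_one]

theorem h77t_det_W_pos : 0 < ((h77t_W N q x y hq hxy).det : ℝ) := by
  rw [h77t_det_W]
  exact_mod_cast Nat.pos_of_ne_zero hq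

/-- `W` normalises `Γ₀(N q)`. -/
theorem h77t_W_mul_mapGL (γ : SL(2, ℤ)) (hγ : γ ∈ Gamma0 (N * q)) :
    ∃ γ' ∈ Gamma0 (N * q),
      h77t_W N q x y hq hxy * mapGL ℝ γ = mapGL ℝ γ' * h77t_W N q x y hq hxy := by
  rw [h77t_mem_Gamma0_iff] at hγ
  obtain ⟨c', hc'⟩ := hγ
  have hdet := h77t_det_eq γ
  set a := γ 0 0 with ha
  set b := γ 0 1 with hb
  set d := γ 1 1 with hd
  rw [hc'] at hdet
  push_cast at hc' hdet
  have hdet' : (!![(q * x * a + y * (N * q * c')) - N * (q * x * b + y * d),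
      -x * a * y - y ^ 2 * (N * c') + q * x ^ 2 * b + x * y * d;
      (N * q : ℤ) * (a + q * c' - N * b - d),
      -N * a * y - N * q * c' * y + N * q * b * x + q * d * x] :
      Matrix (Fin 2) (Fin 2) ℤ).det = 1 := by
    rw [Matrix.det_fin_two_of]
    linear_combination (q * x - N * y) ^ 2 * hdet + (q * x - N * y + 1) * hxy
  obtain ⟨γ', h00, h01, h10, h11⟩ : ∃ γ' : SL(2, ℤ),
      γ' 0 0 = (q * x * a + y * (N * q * c')) - N * (q * x * b + y * d) ∧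
      γ' 0 1 = -x * a * y - y ^ 2 * (N * c') + q * x ^ 2 * b + x * y * d ∧
      γ' 1 0 = (N * q : ℤ) * (a + q * c' - N * b - d) ∧
      γ' 1 1 = -N * a * y - N * q * c' * y + N * q * b * x + q * d * x :=
    ⟨⟨_, hdet'⟩, rfl, rfl, rfl, rfl⟩
  refine ⟨γ', ?_, ?_⟩
  · rw [h77t_mem_Gamma0_iff, h10]
    push_cast
    exact Dvd.intro _ rfl
  · apply Units.ext
    ext i j
    have hxyR : ((q : ℝ) * x - N * y) = 1 := by exact_mod_cast hxy
    have h10R : ((γ 1 0 : ℤ) : ℝ) = (N : ℝ) * q * c' := by rw [hc']; push_cast; ring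
    have key : ∀ t : ℝ, t * ((q : ℝ) * x - N * y) = t := fun t => by rw [hxyR, mul_one]
    fin_cases i <;> fin_cases j <;>
      simp only [Units.val_mul, h77t_val_W, Matrix.mul_apply, Fin.sum_univ_two, coe_mapGL_apply,
        Matrix.of_apply, Matrix.cons_val', Matrix.cons_val_zero, Matrix.cons_val_one,
        Matrix.cons_val_fin_one, Fin.zero_eta, Fin.mk_one, Fin.isValue, h00, h01, h10, h11, h10R,
        ← ha, ← hb, ← hd] <;>
      push_cast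
    · linear_combination (-((q : ℝ) * x * a + y * (N * q * c'))) * hxyR
    · linear_combination (-((q : ℝ) * x * b + y * d)) * hxyR
    · linear_combination (-((N : ℝ) * q * a + q * (N * q * c'))) * hxyR
    · linear_combination (-((N : ℝ) * q * b + q * d)) * hxyR

open ConjAct Pointwise in
theorem h77t_G0_le_conj_W :
    G0 (N * q) ≤ toConjAct (h77t_W N q x y hq hxy)⁻¹ • G0 (N * q) := by
  rintro z ⟨γ, hγ, rfl⟩
  obtain ⟨γ', hγ', h⟩ := h77t_W_mul_mapGL hq hxy γ hγ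
  rw [map_inv, Subgroup.mem_inv_pointwise_smul_iff, toConjAct_smul, h, mul_inv_cancel_right]
  exact ⟨γ', hγ', rfl⟩

/-- The Atkin-Lehner involution `g ↦ g ∣[2] W` at `q` on cusp forms of level `Γ₀(N q)`. -/
noncomputable def h77t_al (g : CuspForm (Gamma0 (N * q)) 2) : CuspForm (Gamma0 (N * q)) 2 where
  toFun := ⇑g ∣[(2 : ℤ)] h77t_W N q x y hq hxy
  slash_action_eq' γ hγ :=
    (CuspForm.translate g (h77t_W N q x y hq hxy)).slash_action_eq' γ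
      (h77t_G0_le_conj_W hq hxy hγ)
  holo' := (CuspForm.translate g (h77t_W N q x y hq hxy)).holo'
  zero_at_cusps' hc :=
    (CuspForm.translate g (h77t_W N q x y hq hxy)).zero_at_cusps'
      (hc.mono (h77t_G0_le_conj_W hq hxy))

@[simp] theorem h77t_coe_al (g : CuspForm (Gamma0 (N * q)) 2) :
    ⇑(h77t_al hq hxy g) = ⇑g ∣[(2 : ℤ)] h77t_W N q x y hq hxy := rfl

/-- `W² = q · γ₀` with `γ₀ ∈ Γ₀(N q)`. -/
theorem h77t_W_sq :
    ∃ γ₀ ∈ Gamma0 (N * q),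
      ((h77t_W N q x y hq hxy * h77t_W N q x y hq hxy : GL (Fin 2) ℝ) :
        Matrix (Fin 2) (Fin 2) ℝ) =
      (q : ℝ) • ((mapGL ℝ γ₀ : GL (Fin 2) ℝ) : Matrix (Fin 2) (Fin 2) ℝ) := by
  have hdet' : (!![(q : ℤ) * x ^ 2 + N * y, x * y + y; (N * q : ℤ) * (x + 1), N * y + q] :
      Matrix (Fin 2) (Fin 2) ℤ).det = 1 := by
    rw [Matrix.det_fin_two_of]
    linear_combination (q * x - N * y + 1) * hxy
  obtain ⟨γ₀, h00, h01, h10, h11⟩ : ∃ γ₀ : SL(2, ℤ),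
      γ₀ 0 0 = (q : ℤ) * x ^ 2 + N * y ∧ γ₀ 0 1 = x * y + y ∧
      γ₀ 1 0 = (N * q : ℤ) * (x + 1) ∧ γ₀ 1 1 = N * y + q :=
    ⟨⟨_, hdet'⟩, rfl, rfl, rfl, rfl⟩
  refine ⟨γ₀, ?_, ?_⟩
  · rw [h77t_mem_Gamma0_iff, h10]
    push_cast
    exact Dvd.intro _ rfl
  · ext i j
    fin_cases i <;> fin_cases j <;>
      simp only [Units.val_mul, h77t_val_W, Matrix.mul_apply, Fin.sum_univ_two, coe_mapGL_apply,
        Matrix.of_apply, Matrix.cons_val', Matrix.cons_val_zero, Matrix.cons_val_one,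
        Matrix.cons_val_fin_one, Fin.zero_eta, Fin.mk_one, Fin.isValue, h00, h01, h10, h11,
        Matrix.smul_apply, smul_eq_mul] <;>
      push_cast <;>
      ring

/-- The Atkin-Lehner operator is an involution (weight two). -/
theorem h77t_slash_W_slash_W (f : ℍ → ℂ)
    (hf : ∀ γ ∈ Gamma0 (N * q), f ∣[(2 : ℤ)] (mapGL ℝ γ : GL (Fin 2) ℝ) = f) :
    (f ∣[(2 : ℤ)] h77t_W N q x y hq hxy) ∣[(2 : ℤ)] h77t_W N q x y hq hxy = f := by
  obtain ⟨γ₀, hγ₀, h⟩ := h77t_W_sq hq hxy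
  rw [← SlashAction.slash_mul,
    slash_two_eq_of_smul f (mapGL ℝ γ₀) _ (q : ℝ) (by exact_mod_cast hq) h]
  exact hf γ₀ hγ₀

theorem h77t_al_al (g : CuspForm (Gamma0 (N * q)) 2) :
    h77t_al hq hxy (h77t_al hq hxy g) = g := by
  apply DFunLike.coe_injective
  rw [h77t_coe_al, h77t_coe_al]
  refine h77t_slash_W_slash_W hq hxy _ fun γ hγ => ?_
  exact SlashInvariantFormClass.slash_action_eq g _ ⟨γ, hγ, rfl⟩

/-! ## Right coset representatives of `Γ₀(N q) \ Γ₀(N)` -/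

/-- `ρ_∞ = 1`, `ρ_j = [[x, x j + y], [N, N j + q]]`. -/
noncomputable def h77t_rho (N q : ℕ) (x y : ℤ) (hxy : (q : ℤ) * x - N * y = 1) :
    Option (Fin q) → SL(2, ℤ)
  | none => 1
  | some j => ⟨!![x, x * ((j : ℕ) : ℤ) + y; (N : ℤ), N * ((j : ℕ) : ℤ) + q], by
      rw [Matrix.det_fin_two_of]; linear_combination hxy⟩

@[simp] theorem h77t_rho_none : h77t_rho N q x y hxy none = 1 := rfl

theorem h77t_rho_some_coe (j : Fin q) :
    ((h77t_rho N q x y hxy (some j) : SL(2, ℤ)) : Matrix (Fin 2) (Fin 2) ℤ) =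
      !![x, x * ((j : ℕ) : ℤ) + y; (N : ℤ), N * ((j : ℕ) : ℤ) + q] := rfl

theorem h77t_rho_mem (a : Option (Fin q)) : h77t_rho N q x y hxy a ∈ Gamma0 N := by
  rcases a with _ | j
  · exact Subgroup.one_mem _
  · rw [h77t_mem_Gamma0_iff, h77t_rho_some_coe]
    simp

/-- `W · [[1, j], [0, q]] = q · ρ_j`. -/
theorem h77t_W_mul_heckeMatrix (j : Fin q) :
    ((h77t_W N q x y hq hxy * heckeMatrix q j : GL (Fin 2) ℝ) : Matrix (Fin 2) (Fin 2) ℝ) =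
      (q : ℝ) • ((mapGL ℝ (h77t_rho N q x y hxy (some j)) : GL (Fin 2) ℝ) :
        Matrix (Fin 2) (Fin 2) ℝ) := by
  rw [Units.val_mul, val_heckeMatrix hq, h77t_val_W]
  ext a b
  fin_cases a <;> fin_cases b <;>
    simp only [Matrix.mul_apply, Fin.sum_univ_two, coe_mapGL_apply, h77t_rho_some_coe,
      Matrix.of_apply, Matrix.cons_val', Matrix.cons_val_zero, Matrix.cons_val_one,
      Matrix.cons_val_fin_one, Fin.zero_eta, Fin.mk_one, Fin.isValue,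
      Matrix.smul_apply, smul_eq_mul] <;>
    push_cast <;>
    ring

/-- In weight two, `(f ∣ W) ∣ [[1, j], [0, q]] = f ∣ ρ_j`. -/
theorem h77t_slash_W_slash_heckeMatrix (j : Fin q) (f : ℍ → ℂ) :
    (f ∣[(2 : ℤ)] h77t_W N q x y hq hxy) ∣[(2 : ℤ)] heckeMatrix q j =
      f ∣[(2 : ℤ)] (h77t_rho N q x y hxy (some j)) := by
  rw [ModularForm.SL_slash, ← SlashAction.slash_mul]
  exact slash_two_eq_of_smul f _ _ (q : ℝ) (by exact_mod_cast hq)
    (h77t_W_mul_heckeMatrix hq hxy j)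

include hxy in
theorem h77t_not_dvd (hqp : q.Prime) : ¬ (q : ℤ) ∣ (N : ℤ) := by
  intro h
  have h1 : (q : ℤ) ∣ (q : ℤ) * x - N * y := Dvd.dvd.sub (Dvd.intro _ rfl) (h.mul_right y)
  rw [hxy] at h1
  have h2 := Int.natCast_dvd_natCast.mp (by simpa using h1 : ((q : ℕ) : ℤ) ∣ ((1 : ℕ) : ℤ))
  exact hqp.one_lt.ne' (Nat.dvd_one.mp h2)

theorem h77t_rho_injective_aux (hqp : q.Prime) (hN : N ≠ 0) (a b : Option (Fin q))
    (h : h77t_rho N q x y hxy a * (h77t_rho N q x y hxy b)⁻¹ ∈ Gamma0 (N * q)) : a = b := by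
  rw [h77t_mem_Gamma0_iff] at h
  have hN' : (N : ℤ) ≠ 0 := by exact_mod_cast hN
  have hq1 : ¬ (q : ℤ) ∣ 1 := by
    intro h1
    have h2 := Int.natCast_dvd_natCast.mp (by simpa using h1 : ((q : ℕ) : ℤ) ∣ ((1 : ℕ) : ℤ))
    exact hqp.one_lt.ne' (Nat.dvd_one.mp h2)
  have hqN := h77t_not_dvd hxy hqp
  have hqpi : Prime (q : ℤ) := Nat.prime_iff_prime_int.mp hqp
  rcases a with _ | i <;> rcases b with _ | j
  · rfl
  · exfalso
    rw [h77t_rho_none, one_mul, Matrix.SpecialLinearGroup.coe_inv, h77t_rho_some_coe,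
      Matrix.adjugate_fin_two_of] at h
    simp only [Matrix.of_apply, Matrix.cons_val', Matrix.cons_val_zero, Matrix.cons_val_one,
      Matrix.cons_val_fin_one] at h
    push_cast at h
    have h1 : (N : ℤ) * q ∣ N * 1 := by simpa using (dvd_neg).mp h
    exact hq1 ((mul_dvd_mul_iff_left hN').mp h1)
  · exfalso
    rw [h77t_rho_none, inv_one, mul_one, h77t_rho_some_coe] at h
    simp only [Matrix.of_apply, Matrix.cons_val', Matrix.cons_val_zero, Matrix.cons_val_one,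
      Matrix.cons_val_fin_one] at h
    push_cast at h
    have h1 : (N : ℤ) * q ∣ N * 1 := by simpa using h
    exact hq1 ((mul_dvd_mul_iff_left hN').mp h1)
  · rw [Matrix.SpecialLinearGroup.coe_mul, Matrix.SpecialLinearGroup.coe_inv, h77t_rho_some_coe,
      h77t_rho_some_coe, Matrix.adjugate_fin_two_of] at h
    simp only [Matrix.mul_apply, Fin.sum_univ_two, Matrix.of_apply, Matrix.cons_val',
      Matrix.cons_val_zero, Matrix.cons_val_one, Matrix.cons_val_fin_one] at h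
    push_cast at h
    have e : (N : ℤ) * (N * ((j : ℕ) : ℤ) + q) + (N * ((i : ℕ) : ℤ) + q) * -N =
        N * (N * (((j : ℕ) : ℤ) - ((i : ℕ) : ℤ))) := by ring
    rw [e] at h
    have h1 : (q : ℤ) ∣ N * (((j : ℕ) : ℤ) - ((i : ℕ) : ℤ)) := (mul_dvd_mul_iff_left hN').mp h
    have h2 : (q : ℤ) ∣ ((j : ℕ) : ℤ) - ((i : ℕ) : ℤ) :=
      (hqpi.dvd_or_dvd h1).resolve_left hqN
    have hij : ((i : ℕ) : ℤ) ≡ ((j : ℕ) : ℤ) [ZMOD (q : ℤ)] := Int.modEq_iff_dvd.mpr h2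
    have hh := Nat.ModEq.eq_of_lt_of_lt (Int.natCast_modEq_iff.mp hij) i.isLt j.isLt
    rw [Fin.ext hh]

theorem h77t_exists_rho_mul_mem (hqp : q.Prime) (g : SL(2, ℤ)) (hg : g ∈ Gamma0 N) :
    ∃ a : Option (Fin q), h77t_rho N q x y hxy a * g ∈ Gamma0 (N * q) := by
  haveI : Fact q.Prime := ⟨hqp⟩
  rw [h77t_mem_Gamma0_iff] at hg
  obtain ⟨c', hc'⟩ := hg
  have hqN := h77t_not_dvd hxy hqp
  have hqpi : Prime (q : ℤ) := Nat.prime_iff_prime_int.mp hqp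
  by_cases h : (q : ℤ) ∣ c'
  · refine ⟨none, ?_⟩
    rw [h77t_rho_none, one_mul, h77t_mem_Gamma0_iff, hc']
    push_cast
    exact mul_dvd_mul_left _ h
  · have hu : (((N : ℤ) * c' : ℤ) : ZMod q) ≠ 0 := by
      rw [Ne, ZMod.intCast_zmod_eq_zero_iff_dvd]
      intro h1
      rcases hqpi.dvd_or_dvd h1 with h2 | h2
      · exact hqN h2
      · exact h h2
    set u : ZMod q := (((N : ℤ) * c' : ℤ) : ZMod q) with hu_def
    have hlt : (-((g 0 0 : ℤ) : ZMod q) * u⁻¹).val < q := ZMod.val_lt _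
    refine ⟨some ⟨_, hlt⟩, ?_⟩
    rw [h77t_mem_Gamma0_iff, Matrix.SpecialLinearGroup.coe_mul, h77t_rho_some_coe]
    simp only [Matrix.mul_apply, Fin.sum_univ_two, Matrix.of_apply, Matrix.cons_val',
      Matrix.cons_val_zero, Matrix.cons_val_one, Matrix.cons_val_fin_one]
    rw [hc']
    have e : (N : ℤ) * g 0 0 + (N * (((-((g 0 0 : ℤ) : ZMod q) * u⁻¹).val : ℕ) : ℤ) + q) *
        (N * c') = N * (g 0 0 + (N * c') * (((-((g 0 0 : ℤ) : ZMod q) * u⁻¹).val : ℕ) : ℤ)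
          + q * c') := by ring
    push_cast
    rw [e]
    apply mul_dvd_mul_left
    rw [← ZMod.intCast_zmod_eq_zero_iff_dvd]
    push_cast
    rw [ZMod.natCast_zmod_val]
    have hu' : ((N : ZMod q) * (c' : ZMod q)) = u := by
      rw [hu_def]; push_cast; rfl
    rw [hu']
    have hq0 : ((q : ℕ) : ZMod q) = 0 := ZMod.natCast_self q
    rw [hq0]
    field_simp
    ring

/-! ## The coset space `Γ₀(N) / Γ₀(N q)` in the `GL(2, ℝ)`-model -/

/-- The coset space indexing `SlashInvariantForm.quotientFunc` for `Γ₀(N q) ≤ Γ₀(N)`. -/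
abbrev h77t_Q (N q : ℕ) : Type := ↥(G0 N) ⧸ (G0 (N * q)).subgroupOf (G0 N)

/-- `Γ₀(N)` mapped onto its image in `GL(2, ℝ)`. -/
noncomputable def h77t_toG0 (N : ℕ) : Gamma0 N →* ↥(G0 N) :=
  ((mapGL ℝ : SL(2, ℤ) →* GL (Fin 2) ℝ).comp (Gamma0 N).subtype).codRestrict (G0 N)
    (fun g => ⟨g, g.2, rfl⟩)

@[simp] theorem h77t_coe_toG0 (g : Gamma0 N) :
    ((h77t_toG0 N g : ↥(G0 N)) : GL (Fin 2) ℝ) = mapGL ℝ (g : SL(2, ℤ)) := rfl

theorem h77t_toG0_surjective : Function.Surjective (h77t_toG0 N) := by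
  rintro ⟨z, γ, hγ, rfl⟩
  exact ⟨⟨γ, hγ⟩, rfl⟩

/-- The class of `g ∈ Γ₀(N)` in `Γ₀(N) / Γ₀(N q)`. -/
noncomputable def h77t_mkQ (N q : ℕ) (g : Gamma0 N) : h77t_Q N q :=
  QuotientGroup.mk (h77t_toG0 N g)

theorem h77t_mkQ_eq_iff (g h : Gamma0 N) :
    h77t_mkQ N q g = h77t_mkQ N q h ↔ (g : SL(2, ℤ))⁻¹ * (h : SL(2, ℤ)) ∈ Gamma0 (N * q) := by
  unfold h77t_mkQ
  rw [QuotientGroup.eq, Subgroup.mem_subgroupOf, ← mapGL_mem_G0_iff]
  simp

theorem h77t_mkQ_surjective : Function.Surjective (h77t_mkQ N q) := by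
  intro z
  induction z using QuotientGroup.induction_on with
  | H w =>
    obtain ⟨g, rfl⟩ := h77t_toG0_surjective w
    exact ⟨g, rfl⟩

theorem h77t_quotientFunc_mkQ (k : ℤ) {F : Type*} [FunLike F ℍ ℂ]
    [SlashInvariantFormClass F (G0 (N * q)) k] (f : F) (g : Gamma0 N) :
    SlashInvariantForm.quotientFunc (ℋ := G0 N) f (h77t_mkQ N q g) =
      (⇑f) ∣[k] ((g : SL(2, ℤ))⁻¹) := by
  unfold h77t_mkQ
  rw [SlashInvariantForm.quotientFunc_mk, ModularForm.SL_slash, h77t_coe_toG0, ← map_inv]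
  rfl

/-- The explicit transversal of `Γ₀(N) / Γ₀(N q)`: `a ↦ ρ_a⁻¹`. -/
noncomputable def h77t_cosetEquiv (hqp : q.Prime) (hN : N ≠ 0) :
    Option (Fin q) ≃ h77t_Q N q :=
  Equiv.ofBijective
    (fun a => h77t_mkQ N q (⟨h77t_rho N q x y hxy a, h77t_rho_mem hxy a⟩ : Gamma0 N)⁻¹) <| by
    constructor
    · intro a b h
      rw [h77t_mkQ_eq_iff] at h
      simp only [InvMemClass.coe_inv, inv_inv] at h
      exact h77t_rho_injective_aux hxy hqp hN a b h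
    · intro z
      obtain ⟨g, rfl⟩ := h77t_mkQ_surjective z
      obtain ⟨a, ha⟩ := h77t_exists_rho_mul_mem hxy hqp (g : SL(2, ℤ)) g.2
      refine ⟨a, ?_⟩
      show h77t_mkQ N q _ = h77t_mkQ N q g
      rw [h77t_mkQ_eq_iff]
      simpa only [InvMemClass.coe_inv, inv_inv] using ha

theorem h77t_quotientFunc_cosetEquiv (hqp : q.Prime) (hN : N ≠ 0) (k : ℤ) {F : Type*}
    [FunLike F ℍ ℂ] [SlashInvariantFormClass F (G0 (N * q)) k] (f : F) (a : Option (Fin q)) :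
    SlashInvariantForm.quotientFunc (ℋ := G0 N) f (h77t_cosetEquiv hxy hqp hN a) =
      (⇑f) ∣[k] (h77t_rho N q x y hxy a) := by
  show SlashInvariantForm.quotientFunc (ℋ := G0 N) f (h77t_mkQ N q _) = _
  rw [h77t_quotientFunc_mkQ]
  simp only [InvMemClass.coe_inv, inv_inv]

theorem h77t_sum_quotientFunc (hqp : q.Prime) (hN : N ≠ 0) (k : ℤ) {F : Type*}
    [FunLike F ℍ ℂ] [SlashInvariantFormClass F (G0 (N * q)) k] (f : F) [Fintype (h77t_Q N q)] :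
    ∑ z : h77t_Q N q, SlashInvariantForm.quotientFunc (ℋ := G0 N) f z =
      ⇑f + ∑ j : Fin q, (⇑f) ∣[k] (h77t_rho N q x y hxy (some j)) := by
  rw [← (h77t_cosetEquiv hxy hqp hN).sum_comp, Fintype.sum_option]
  simp only [h77t_quotientFunc_cosetEquiv, h77t_rho_none]
  congr 1
  exact SlashAction.slash_one k _

/-! ## The two traces -/

include hxy in
theorem h77t_isFiniteRelIndex (hqp : q.Prime) (hN : N ≠ 0) :
    (G0 (N * q)).IsFiniteRelIndex (G0 N) := by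
  rw [Subgroup.isFiniteRelIndex_iff_finiteIndex]
  haveI : Finite (h77t_Q N q) := Finite.of_equiv _ (h77t_cosetEquiv hxy hqp hN)
  exact Subgroup.finiteIndex_of_finite_quotient

/-- `Tr₁ : S₂(Γ₀(N q)) → S₂(Γ₀(N))`, the trace along `Γ₀(N q) ≤ Γ₀(N)`. -/
noncomputable def h77t_tr1 (hqp : q.Prime) (hN : N ≠ 0) (g : CuspForm (Gamma0 (N * q)) 2) :
    CuspForm (Gamma0 N) 2 :=
  haveI := h77t_isFiniteRelIndex hxy hqp hN
  CuspForm.trace (G0 N) g

/-- `Tr₁ g = g + ∑_j g ∣ ρ_j`. -/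
theorem h77t_coe_tr1_rho (hqp : q.Prime) (hN : N ≠ 0) (g : CuspForm (Gamma0 (N * q)) 2) :
    (⇑(h77t_tr1 hxy hqp hN g) : ℍ → ℂ) =
      ⇑g + ∑ j : Fin q, (⇑g) ∣[(2 : ℤ)] (h77t_rho N q x y hxy (some j)) := by
  haveI := h77t_isFiniteRelIndex hxy hqp hN
  unfold h77t_tr1
  rw [CuspForm.coe_trace]
  letI : Fintype (h77t_Q N q) := Fintype.ofFinite _
  exact h77t_sum_quotientFunc hxy hqp hN 2 g

/-- `Tr₁ g = g + U_q (g ∣[2] W)`. -/
theorem h77t_coe_tr1 (hqp : q.Prime) (hN : N ≠ 0) (g : CuspForm (Gamma0 (N * q)) 2) :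
    (⇑(h77t_tr1 hxy hqp hN g) : ℍ → ℂ) =
      ⇑g + heckeU 2 q (⇑g ∣[(2 : ℤ)] h77t_W N q x y hq hxy) := by
  rw [h77t_coe_tr1_rho, heckeU_def, Finset.sum_range]
  congr 1
  refine Finset.sum_congr rfl fun j _ => ?_
  exact (h77t_slash_W_slash_heckeMatrix hq hxy j _).symm

/-- `Tr₂ = Tr₁ ∘ w_q : S₂(Γ₀(N q)) → S₂(Γ₀(N))`. -/
noncomputable def h77t_tr2 (hqp : q.Prime) (hN : N ≠ 0) (g : CuspForm (Gamma0 (N * q)) 2) :
    CuspForm (Gamma0 N) 2 :=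
  h77t_tr1 hxy hqp hN (h77t_al hq hxy g)

/-- `Tr₂ g = g ∣[2] W + U_q g`. -/
theorem h77t_coe_tr2 (hqp : q.Prime) (hN : N ≠ 0) (g : CuspForm (Gamma0 (N * q)) 2) :
    (⇑(h77t_tr2 hq hxy hqp hN g) : ℍ → ℂ) =
      ⇑g ∣[(2 : ℤ)] h77t_W N q x y hq hxy + heckeU 2 q ⇑g := by
  unfold h77t_tr2
  rw [h77t_coe_tr1 hq hxy hqp hN, h77t_coe_al]
  congr 2
  refine h77t_slash_W_slash_W hq hxy _ fun γ hγ => ?_
  exact SlashInvariantFormClass.slash_action_eq g _ ⟨γ, hγ, rfl⟩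

/-- Existence form of `Tr₁` (for consumers who do not want the definitions). -/
theorem h77t_exists_tr1 (hqp : q.Prime) (hN : N ≠ 0) (g : CuspForm (Gamma0 (N * q)) 2) :
    ∃ h : CuspForm (Gamma0 N) 2, (⇑h : ℍ → ℂ) =
      ⇑g + heckeU 2 q (⇑g ∣[(2 : ℤ)] h77t_W N q x y hq hxy) :=
  ⟨_, h77t_coe_tr1 hq hxy hqp hN g⟩

/-- Existence form of `Tr₂`. -/
theorem h77t_exists_tr2 (hqp : q.Prime) (hN : N ≠ 0) (g : CuspForm (Gamma0 (N * q)) 2) :
    ∃ h : CuspForm (Gamma0 N) 2, (⇑h : ℍ → ℂ) =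
      ⇑g ∣[(2 : ℤ)] h77t_W N q x y hq hxy + heckeU 2 q ⇑g :=
  ⟨_, h77t_coe_tr2 hq hxy hqp hN g⟩

end Fermat.Agent.LR
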