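import Fermat.Agent.LR.CohPar

/-!
# P-LR, LR-ES: the cohomological Hecke operators commute with the involution `J` (helper22)

`charInvolution N R A φ = φ ∘ (γ ↦ j γ j)`, `j = diag(1, -1)`.  Conjugation by `j` maps the
representatives `heckeRep ℓ i` of `T_ℓ` to `u_i · heckeRep ℓ (s i)` with `u_i ∈ Γ₀(N)` and `s` an
involution of the index set, so `T_ℓ` commutes with `J` (helper17's `h17lr_op_of_equiv`).

* `h22es_charInv_hecke : IsCohHeckeAdd N ℓ φ φ' →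
    IsCohHeckeAdd N ℓ (charInvolution N R A φ) (charInvolution N R A φ')`.
-/

set_option autoImplicit false

open scoped MatrixGroups
open ModularCurve ModularCurve.Period CongruenceSubgroup
open Fermat.Agent.LR Fermat.Agent.Jac

namespace Fermat.Agent.LR.ES

/-- the involution of the index set: `i ↦ ℓ - i` for `0 < i < ℓ`, identity on `0` and `ℓ`. -/
def h22es_flip (ℓ : ℕ) (i : Fin (ℓ + 1)) : Fin (ℓ + 1) :=
  if h : 0 < (i : ℕ) ∧ (i : ℕ) < ℓ then ⟨ℓ - (i : ℕ), by omega⟩ else i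

lemma h22es_flip_val_of_mid {ℓ : ℕ} {i : Fin (ℓ + 1)} (h : 0 < (i : ℕ) ∧ (i : ℕ) < ℓ) :
    ((h22es_flip ℓ i : Fin (ℓ + 1)) : ℕ) = ℓ - (i : ℕ) := by
  unfold h22es_flip
  rw [dif_pos h]

lemma h22es_flip_of_not_mid {ℓ : ℕ} {i : Fin (ℓ + 1)} (h : ¬ (0 < (i : ℕ) ∧ (i : ℕ) < ℓ)) :
    h22es_flip ℓ i = i := by
  unfold h22es_flip
  rw [dif_neg h]

lemma h22es_flip_flip (ℓ : ℕ) (i : Fin (ℓ + 1)) : h22es_flip ℓ (h22es_flip ℓ i) = i := by
  by_cases h : 0 < (i : ℕ) ∧ (i : ℕ) < ℓ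
  · have h1 := h22es_flip_val_of_mid h
    have h2 : 0 < ((h22es_flip ℓ i : Fin (ℓ + 1)) : ℕ) ∧
        ((h22es_flip ℓ i : Fin (ℓ + 1)) : ℕ) < ℓ := by omega
    apply Fin.ext
    rw [h22es_flip_val_of_mid h2, h1]
    omega
  · rw [h22es_flip_of_not_mid h, h22es_flip_of_not_mid h]

lemma h22es_flip_bijective (ℓ : ℕ) : Function.Bijective (h22es_flip ℓ) :=
  Function.Involutive.bijective (h22es_flip_flip ℓ)

/-- the left factors: `u(-1)` for `0 < i < ℓ`, `1` otherwise. -/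
def h22es_flipU (N ℓ : ℕ) (i : Fin (ℓ + 1)) : Gamma0 N :=
  if 0 < (i : ℕ) ∧ (i : ℕ) < ℓ then h17_mk N 1 (-1) 0 1 (by ring) (dvd_zero _) else 1

/-- `j δ_i j = u_i δ_{s i}`. -/
lemma h22es_jConj_heckeRep (N ℓ : ℕ) (i : Fin (ℓ + 1)) :
    jConjMat (heckeRep ℓ i) =
      h17lr_coe (Gamma0 N) (h22es_flipU N ℓ i) * heckeRep ℓ (h22es_flip ℓ i) := by
  by_cases h : 0 < (i : ℕ) ∧ (i : ℕ) < ℓ
  · have h1 := h22es_flip_val_of_mid h
    have h2 : ((h22es_flip ℓ i : Fin (ℓ + 1)) : ℕ) < ℓ := by omega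
    rw [h22es_flipU, if_pos h, h17_heckeRep_lt i h.2, h17_heckeRep_lt _ h2, h17lr_coe_apply,
      h17_mk_coe, h1]
    have hc : ((ℓ - (i : ℕ) : ℕ) : ℤ) = (ℓ : ℤ) - ((i : ℕ) : ℤ) := by
      rw [Nat.cast_sub h.2.le]
    rw [hc]
    ext a b
    fin_cases a <;> fin_cases b <;> simp [jConjMat, Matrix.mul_apply, Fin.sum_univ_two]
    ring
  · rw [h22es_flipU, if_neg h, h22es_flip_of_not_mid h, map_one, one_mul]
    by_cases hi : (i : ℕ) < ℓ
    · have h0 : (i : ℕ) = 0 := by omega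
      rw [h17_heckeRep_lt i hi, h0]
      ext a b
      fin_cases a <;> fin_cases b <;> simp [jConjMat]
    · rw [h17_heckeRep_last i hi]
      ext a b
      fin_cases a <;> fin_cases b <;> simp [jConjMat]

lemma h22es_coe_jConj {N : ℕ} (γ : Gamma0 N) :
    h17lr_coe (Gamma0 N) (jConjGamma0 N γ) = jConjMat (h17lr_coe (Gamma0 N) γ) := rfl

/-- **`T_ℓ` commutes with the involution `J`.** -/
theorem h22es_charInv_hecke {N ℓ : ℕ} (hℓ : ℓ.Prime) (R : Type*) [Semiring R]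
    {A : Type*} [AddCommGroup A] [Module R A] {φ φ' : Additive (Gamma0 N) →+ A}
    (h : IsCohHeckeAdd N ℓ φ φ') :
    IsCohHeckeAdd N ℓ (charInvolution N R A φ) (charInvolution N R A φ') := by
  have hF : h17lr_Free (h17lr_coe (Gamma0 N)) (heckeRep ℓ) := h17lr_free_heckeRep N hℓ
  have hF' : h17lr_Free (h17lr_coe (Gamma0 N)) (fun i => jConjMat (heckeRep ℓ i)) :=
    h17lr_free_of_cover hF (h22es_flip ℓ) (h22es_flip_bijective ℓ).injective
      (h22es_flipU N ℓ) (h22es_jConj_heckeRep N ℓ)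
  have hop : h17lr_IsOp (h17lr_coe (Gamma0 N)) (h17lr_coe (Gamma0 N))
      (fun i => jConjMat (heckeRep ℓ i)) φ φ' :=
    h17lr_op_of_equiv hF' (h22es_flip ℓ) (h22es_flip_bijective ℓ) (h22es_flipU N ℓ)
      (h22es_jConj_heckeRep N ℓ) (h17lr_isCohHeckeAdd_iff.mp h)
  intro γ π c hd
  rw [charInvolution_apply]
  have hdec : h17lr_Decomp (h17lr_coe (Gamma0 N)) (h17lr_coe (Gamma0 N))
      (fun i => jConjMat (heckeRep ℓ i)) (jConjGamma0 N γ) π (fun i => jConjGamma0 N (c i)) := by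
    intro i
    show jConjMat (heckeRep ℓ i) * h17lr_coe (Gamma0 N) (jConjGamma0 N γ) =
      h17lr_coe (Gamma0 N) (jConjGamma0 N (c i)) * jConjMat (heckeRep ℓ (π i))
    rw [h22es_coe_jConj, h22es_coe_jConj, ← jConjMat_mul, ← jConjMat_mul]
    exact congrArg jConjMat (hd i)
  exact hop (jConjGamma0 N γ) π (fun i => jConjGamma0 N (c i)) hdec

end Fermat.Agent.LR.ES
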