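import Fermat.Agent.LR.ES.U2
import Fermat.Agent.LR.ES.Inv
import Fermat.Agent.LR.ES.H36Input
import Fermat.Agent.LR.CohCor
import Fermat.Agent.LR.AsmDefs

/-!
# P-LR, LR-ES: Eichler-Shimura transport, `h88_EsStatement` (helper22)

A nonzero parabolic `v : Γ₀(Nq) → ℂ`, killed by both transfers to level `N` and eigen for the
cohomological `T_ℓ` (`ℓ ∈ S`), comes from a nonzero cusp form `g₀` of level `Nq` which is eigen
for `T_ℓ` (`ℓ ∈ S`) with the same eigenvalues and satisfies `tr₁ g₀ = 0 = tr₂ g₀`, hence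
`U_q (U_q g₀) = g₀`.
-/

set_option autoImplicit false

open UpperHalfPlane hiding I
open scoped Manifold MatrixGroups ModularForm
open ModularCurve ModularCurve.Period CongruenceSubgroup
open Fermat.Agent.LR Fermat.Agent.Jac

namespace Fermat.Agent.LR.ES

noncomputable section

/-! ### the involution `J` and the transfers -/

lemma h22es_incl_jConj (N q : ℕ) (c : Gamma0 (N * q)) :
    h32_incl N q (jConjGamma0 (N * q) c) = jConjGamma0 N (h32_incl N q c) := rfl

lemma h22es_up_jConj (N q : ℕ) [NeZero q] (c : Gamma0 (N * q)) :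
    h32_up N q (jConjGamma0 (N * q) c) = jConjGamma0 N (h32_up N q c) := by
  apply h17lr_coe_injective
  have hd := h17lr_dvd_lower N q c
  rw [h17lr_coe_up]
  show _ = jConjMat (h17lr_coe (Gamma0 N) (h32_up N q c))
  rw [h17lr_coe_up]
  have e : ∀ a b : Fin 2, h17lr_coe (Gamma0 (N * q)) (jConjGamma0 (N * q) c) a b =
      jConjMat (h17lr_coe (Gamma0 (N * q)) c) a b := fun _ _ => rfl
  rw [e, e, e, e]
  ext a b
  fin_cases a <;> fin_cases b <;> simp [jConjMat]
  exact Int.neg_ediv_of_dvd hd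

/-- a homomorphism commuting with `J` has `J`-equivariant transfer. -/
theorem h22es_charInv_cor (N q : ℕ) (f : Gamma0 (N * q) →* Gamma0 N)
    (hf : ∀ c, f (jConjGamma0 (N * q) c) = jConjGamma0 N (f c))
    (R : Type*) [Semiring R] {A : Type*} [AddCommGroup A] [Module R A]
    {y : Additive (Gamma0 (N * q)) →+ A} {z : Additive (Gamma0 N) →+ A}
    (h : h17lr_IsCor f y z) :
    h17lr_IsCor f (charInvolution (N * q) R A y) (charInvolution N R A z) := by
  intro ι _ δ π c γ hδ hdec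
  rw [charInvolution_apply]
  have hδ' : h17lr_IsReps f (fun i => jConjGamma0 N (δ i)) := by
    constructor
    · intro i j hij
      apply hδ.1
      obtain ⟨c', hc'⟩ := hij
      refine ⟨jConjGamma0 (N * q) c', ?_⟩
      rw [hf, hc', map_mul, map_inv, jConjGamma0_jConjGamma0, jConjGamma0_jConjGamma0]
    · intro γ'
      obtain ⟨i, c', hc'⟩ := hδ.2 (jConjGamma0 N γ')
      refine ⟨i, jConjGamma0 (N * q) c', ?_⟩
      rw [hf, hc', map_mul, map_inv, jConjGamma0_jConjGamma0]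
  have hdec' : ∀ i, jConjGamma0 N (δ i) * jConjGamma0 N γ =
      f (jConjGamma0 (N * q) (c i)) * jConjGamma0 N (δ (π i)) := by
    intro i
    rw [hf, ← map_mul, ← map_mul, hdec i]
  have := h ι (fun i => jConjGamma0 N (δ i)) π (fun i => jConjGamma0 (N * q) (c i))
    (jConjGamma0 N γ) hδ' hdec'
  simpa using this

/-! ### additive relations and the Eichler-Shimura pair -/

/-- the Eichler-Shimura pair map in terms of the period map. -/
lemma h22es_periodHomPair_apply (M : ℕ) [NeZero M] (g₁ g₂ : CuspForm (Gamma0 M) 2) :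
    periodHomPair M (g₁, g₂) =
      (periodMap M g₁ + charInvolution M ℂ ℂ (periodMap M g₁)) +
        (periodMap M g₂ + -charInvolution M ℂ ℂ (periodMap M g₂)) := by
  obtain ⟨pml, hpml, hpair⟩ := periodHomPair_def M (Fermat.Agent.S21.existsPeriodMapLinear M)
  rw [hpair]
  simp only [LinearMap.coprod_apply, LinearMap.comp_apply, hpml, LinearMap.add_apply,
    LinearMap.sub_apply, LinearMap.id_apply]
  rw [sub_eq_add_neg]

/-- an additive, `J`-equivariant relation between homomorphisms which holds for the periods of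
`g` and `t g` holds for the Eichler-Shimura pairs. -/
lemma h22es_pair_rel {M N : ℕ} [NeZero M] [NeZero N]
    (Rel : (Additive (Gamma0 M) →+ ℂ) → (Additive (Gamma0 N) →+ ℂ) → Prop)
    (hadd : ∀ y y' z z', Rel y z → Rel y' z' → Rel (y + y') (z + z'))
    (hneg : ∀ y z, Rel y z → Rel (-y) (-z))
    (hinv : ∀ y z, Rel y z → Rel (charInvolution M ℂ ℂ y) (charInvolution N ℂ ℂ z))
    (t : CuspForm (Gamma0 M) 2 → CuspForm (Gamma0 N) 2)
    (hper : ∀ g, Rel (periodMap M g) (periodMap N (t g)))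
    (g₁ g₂ : CuspForm (Gamma0 M) 2) :
    Rel (periodHomPair M (g₁, g₂)) (periodHomPair N (t g₁, t g₂)) := by
  rw [h22es_periodHomPair_apply, h22es_periodHomPair_apply]
  exact hadd _ _ _ _ (hadd _ _ _ _ (hper g₁) (hinv _ _ (hper g₁)))
    (hadd _ _ _ _ (hper g₂) (hneg _ _ (hinv _ _ (hper g₂))))

lemma h22es_cor_neg {H Γ : Type*} [Group H] [Group Γ] {f : H →* Γ} {A : Type*} [AddCommGroup A]
    {y : Additive H →+ A} {z : Additive Γ →+ A} (h : h17lr_IsCor f y z) :
    h17lr_IsCor f (-y) (-z) := by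
  have := h17lr_cor_map (-(AddMonoidHom.id A)) h
  have e1 : (-(AddMonoidHom.id A)).comp y = -y := by
    ext a; simp
  have e2 : (-(AddMonoidHom.id A)).comp z = -z := by
    ext a; simp
  rw [e1, e2] at this
  exact this

lemma h22es_hecke_add {N ℓ : ℕ} {A : Type*} [AddCommGroup A]
    {y y' z z' : Additive (Gamma0 N) →+ A} (h : IsCohHeckeAdd N ℓ y z)
    (h' : IsCohHeckeAdd N ℓ y' z') : IsCohHeckeAdd N ℓ (y + y') (z + z') :=
  h17lr_isCohHeckeAdd_iff.mpr
    (h17lr_op_add (h17lr_isCohHeckeAdd_iff.mp h) (h17lr_isCohHeckeAdd_iff.mp h'))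

lemma h22es_hecke_neg {N ℓ : ℕ} {A : Type*} [AddCommGroup A]
    {y z : Additive (Gamma0 N) →+ A} (h : IsCohHeckeAdd N ℓ y z) :
    IsCohHeckeAdd N ℓ (-y) (-z) := by
  have := h17lr_op_map (-(AddMonoidHom.id A)) (h17lr_isCohHeckeAdd_iff.mp h)
  have e1 : (-(AddMonoidHom.id A)).comp y = -y := by
    ext a; simp
  have e2 : (-(AddMonoidHom.id A)).comp z = -z := by
    ext a; simp
  rw [e1, e2] at this
  exact h17lr_isCohHeckeAdd_iff.mpr this

lemma h22es_hecke_unique {N ℓ : ℕ} (hℓ : ℓ.Prime) (hℓN : ¬ ℓ ∣ N) {A : Type*} [AddCommGroup A]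
    {y z z' : Additive (Gamma0 N) →+ A} (h : IsCohHeckeAdd N ℓ y z)
    (h' : IsCohHeckeAdd N ℓ y z') : z = z' :=
  h17lr_op_unique (h17lr_closed_heckeRep hℓ hℓN) (h17lr_isCohHeckeAdd_iff.mp h)
    (h17lr_isCohHeckeAdd_iff.mp h')

/-! ### the transport -/

/-- **OUTPUT.**  A nonzero parabolic `v : Γ₀(Nq) → ℂ`, killed by both transfers to level `N`
and eigen for the cohomological `T_ℓ` (`ℓ ∈ S`), comes from a nonzero cusp form of level `Nq`,
eigen for `T_ℓ` (`ℓ ∈ S`) and killed by both traces. -/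
theorem h22es_output (N q : ℕ) [NeZero N] [NeZero q] (hq : q.Prime) (hqN : ¬ q ∣ N)
    (S : Set ℕ) (lam : ℕ → ℂ) (v : Additive (Gamma0 (N * q)) →+ ℂ)
    (hv : v ≠ 0) (hpar : Period.IsParabolicHom (Gamma0 (N * q)) v)
    (h1 : h17lr_IsCor (h32_incl N q) v 0) (h2 : h17lr_IsCor (h32_up N q) v 0)
    (heig : ∀ ℓ ∈ S, IsCohHeckeAdd (N * q) ℓ v (lam ℓ • v)) :
    ∃ g₀ : CuspForm (Gamma0 (N * q)) 2, g₀ ≠ 0 ∧
      (∀ (ℓ : ℕ) (hℓ : ℓ.Prime) (hℓM : ¬ ℓ ∣ N * q), ℓ ∈ S →
        CuspForm.heckeTLin 2 hℓ hℓM g₀ = lam ℓ • g₀) ∧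
      h22es_tr1 N q g₀ = 0 ∧ h22es_tr2 N q g₀ = 0 := by
  obtain ⟨x, y, hxy⟩ := h17lr_exists_bezout hq hqN
  have hES := Fermat.Agent.S21.result (N * q)
  have hinjN := (Fermat.Agent.S21.result N).1
  -- `v` is an Eichler-Shimura pair
  have hvmem : v ∈ LinearMap.range (periodHomPair (N * q)) := by
    rw [hES.2]
    exact hpar
  obtain ⟨⟨g₁, g₂⟩, hg⟩ := hvmem
  -- the traces vanish
  have htr1 : (h22es_tr1 N q g₁, h22es_tr1 N q g₂) = (0 : CuspForm (Gamma0 N) 2 × _) := by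
    apply hinjN
    rw [map_zero]
    have hrel := h22es_pair_rel (fun y z => h17lr_IsCor (h32_incl N q) y z)
      (fun _ _ _ _ => h17lr_cor_add) (fun _ _ => h22es_cor_neg)
      (fun _ _ => h22es_charInv_cor N q (h32_incl N q) (h22es_incl_jConj N q) ℂ)
      (fun g => h22es_tr1 N q g) (h22es_isCor_tr1 N q) g₁ g₂
    rw [hg] at hrel
    exact h17lr_cor_unique (h17lr_isReps_rho hq hqN x y hxy) hrel h1
  have htr2 : (h22es_tr2 N q g₁, h22es_tr2 N q g₂) = (0 : CuspForm (Gamma0 N) 2 × _) := by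
    apply hinjN
    rw [map_zero]
    have hrel := h22es_pair_rel (fun y z => h17lr_IsCor (h32_up N q) y z)
      (fun _ _ _ _ => h17lr_cor_add) (fun _ _ => h22es_cor_neg)
      (fun _ _ => h22es_charInv_cor N q (h32_up N q) (h22es_up_jConj N q) ℂ)
      (fun g => h22es_tr2 N q g) (h22es_isCor_tr2 N q) g₁ g₂
    rw [hg] at hrel
    exact h17lr_cor_unique (h17lr_isReps_tau hq hqN x y hxy) hrel h2
  -- the eigen-equations
  have hT : ∀ (ℓ : ℕ) (hℓ : ℓ.Prime) (hℓM : ¬ ℓ ∣ N * q), ℓ ∈ S →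
      (CuspForm.heckeTLin 2 hℓ hℓM g₁, CuspForm.heckeTLin 2 hℓ hℓM g₂) =
        lam ℓ • (g₁, g₂) := by
    intro ℓ hℓ hℓM hℓS
    apply hES.1
    have hrel := h22es_pair_rel (fun y z => IsCohHeckeAdd (N * q) ℓ y z)
      (fun _ _ _ _ => h22es_hecke_add) (fun _ _ => h22es_hecke_neg)
      (fun _ _ => h22es_charInv_hecke hℓ ℂ)
      (fun g => CuspForm.heckeTLin 2 hℓ hℓM g)
      (fun g => Fermat.Agent.Jac.periodHecke (N * q) ℓ hℓ hℓM g) g₁ g₂
    rw [hg] at hrel
    rw [map_smul, hg]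
    exact h22es_hecke_unique hℓ hℓM hrel (heig ℓ hℓS)
  -- one of the two components is nonzero
  have hne : g₁ ≠ 0 ∨ g₂ ≠ 0 := by
    by_contra hcon
    have hc1 : g₁ = 0 := by
      by_contra h0
      exact hcon (Or.inl h0)
    have hc2 : g₂ = 0 := by
      by_contra h0
      exact hcon (Or.inr h0)
    apply hv
    rw [← hg, hc1, hc2]
    exact map_zero _
  rcases hne with hne | hne
  · refine ⟨g₁, hne, fun ℓ hℓ hℓM hℓS => ?_, ?_, ?_⟩
    · exact congrArg Prod.fst (hT ℓ hℓ hℓM hℓS)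
    · exact congrArg Prod.fst htr1
    · exact congrArg Prod.fst htr2
  · refine ⟨g₂, hne, fun ℓ hℓ hℓM hℓS => ?_, ?_, ?_⟩
    · exact congrArg Prod.snd (hT ℓ hℓ hℓM hℓS)
    · exact congrArg Prod.snd htr1
    · exact congrArg Prod.snd htr2

/-- **LR-ES.** -/
theorem h22es_esStatement : h88_EsStatement := by
  intro N q _ _ hq hqN S lam v _ hv hpar h1 h2 heig
  obtain ⟨g₀, hg₀, hT, ht1, ht2⟩ := h22es_output N q hq hqN S lam v hv hpar h1 h2 heig
  exact ⟨g₀, hg₀, hT, h22es_U2_of_traces N q hq hqN g₀ ht1 ht2⟩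

end

end Fermat.Agent.LR.ES
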