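import Fermat.Agent.LR.ES.TraceSum

/-!
# P-LR, LR-ES: the two traces `S₂(Γ₀(Nq)) → S₂(Γ₀(N))` and the period map (helper22)

* `h22es_tr1 N q`, `h22es_tr2 N q : CuspForm (Gamma0 (N * q)) 2 →ₗ[ℂ] CuspForm (Gamma0 N) 2`;
* `h22es_tr1_eq_sum`, `h22es_tr2_eq_sum`: their values on an arbitrary system of representatives
  (`h17lr_IsReps`) of `incl(Γ₀(Nq)) \ Γ₀(N)` resp. `up(Γ₀(Nq)) \ Γ₀(N)`;
* `h22es_isCor_tr1`, `h22es_isCor_tr2`: the period map intertwines them with the transfers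
  `h17lr_IsCor (h32_incl N q)`, `h17lr_IsCor (h32_up N q)`.
-/

set_option autoImplicit false

open UpperHalfPlane hiding I
open scoped Manifold MatrixGroups ModularForm Pointwise
open ModularCurve ModularCurve.Period CongruenceSubgroup
open Fermat.Agent.LR

namespace Fermat.Agent.LR.ES

noncomputable section

/-! ### positivity of determinants -/

lemma h22es_det_mapGL (δ : SL(2, ℤ)) :
    ((Matrix.SpecialLinearGroup.mapGL ℝ δ : GL (Fin 2) ℝ)).val.det = 1 := by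
  rw [h22es_val_mapGL, Matrix.det_fin_two]
  have h := δ.det_coe
  rw [Matrix.det_fin_two] at h
  have h2 : ((((δ : Matrix (Fin 2) (Fin 2) ℤ) 0 0 * (δ : Matrix (Fin 2) (Fin 2) ℤ) 1 1 -
      (δ : Matrix (Fin 2) (Fin 2) ℤ) 0 1 * (δ : Matrix (Fin 2) (Fin 2) ℤ) 1 0 : ℤ)) : ℝ) = 1 := by
    rw [h]; norm_num
  simpa using h2

lemma h22es_det_pos_of_mem_G (M : ℕ) (x : GL (Fin 2) ℝ) (hx : x ∈ h22es_G M) :
    0 < x.val.det := by
  obtain ⟨δ, _, rfl⟩ := hx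
  rw [h22es_det_mapGL]
  exact one_pos

lemma h22es_val_D {q : ℕ} (hq : q ≠ 0) :
    ((h22es_D q : GL (Fin 2) ℝ) : Matrix (Fin 2) (Fin 2) ℝ) = !![(1 : ℝ), 0; 0, (q : ℝ)] := by
  unfold h22es_D h22es_DQ
  rw [dif_neg hq]
  ext a b
  fin_cases a <;> fin_cases b <;> simp

lemma h22es_det_D_pos {q : ℕ} (hq : q ≠ 0) : 0 < (h22es_D q).val.det := by
  rw [h22es_val_D hq, Matrix.det_fin_two_of]
  simp only [mul_zero, sub_zero, one_mul]
  exact_mod_cast Nat.pos_of_ne_zero hq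

/-! ### the linear maps -/

/-- the trace along `Γ₀(Nq) ≤ Γ₀(N)`. -/
def h22es_tr1 (N q : ℕ) [NeZero N] [NeZero q] :
    CuspForm (Gamma0 (N * q)) 2 →ₗ[ℂ] CuspForm (Gamma0 N) 2 where
  toFun := h22es_tr1Fun N q
  map_add' f g := by
    apply DFunLike.coe_injective
    show (⇑(CuspForm.trace (h22es_G N) (f + g)) : ℍ → ℂ) =
      ⇑(CuspForm.trace (h22es_G N) f) + ⇑(CuspForm.trace (h22es_G N) g)
    rw [CuspForm.coe_trace, CuspForm.coe_trace, CuspForm.coe_trace, ← Finset.sum_add_distrib]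
    exact Finset.sum_congr rfl fun x _ => h22es_quotientFunc_add f g (f + g) rfl x
  map_smul' c f := by
    apply DFunLike.coe_injective
    show (⇑(CuspForm.trace (h22es_G N) (c • f)) : ℍ → ℂ) =
      c • ⇑(CuspForm.trace (h22es_G N) f)
    rw [CuspForm.coe_trace, CuspForm.coe_trace, Finset.smul_sum]
    exact Finset.sum_congr rfl fun x _ =>
      h22es_quotientFunc_smul (h22es_det_pos_of_mem_G N) c f (c • f) rfl x

/-- the trace along `up : Γ₀(Nq) → Γ₀(N)` (conjugation by `diag(q, 1)`). -/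
def h22es_tr2 (N q : ℕ) [NeZero N] [NeZero q] :
    CuspForm (Gamma0 (N * q)) 2 →ₗ[ℂ] CuspForm (Gamma0 N) 2 where
  toFun := h22es_tr2Fun N q
  map_add' f g := by
    apply DFunLike.coe_injective
    show (⇑(CuspForm.trace (h22es_G N) (CuspForm.translate (f + g) (h22es_D q))) : ℍ → ℂ) =
      ⇑(CuspForm.trace (h22es_G N) (CuspForm.translate f (h22es_D q))) +
        ⇑(CuspForm.trace (h22es_G N) (CuspForm.translate g (h22es_D q)))
    rw [CuspForm.coe_trace, CuspForm.coe_trace, CuspForm.coe_trace, ← Finset.sum_add_distrib]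
    refine Finset.sum_congr rfl fun x _ => h22es_quotientFunc_add _ _ _ ?_ x
    show (⇑(f + g) : ℍ → ℂ) ∣[(2 : ℤ)] h22es_D q = ⇑f ∣[(2 : ℤ)] h22es_D q + ⇑g ∣[(2 : ℤ)] h22es_D q
    rw [FunLike.coe_add, SlashAction.add_slash]
  map_smul' c f := by
    apply DFunLike.coe_injective
    show (⇑(CuspForm.trace (h22es_G N) (CuspForm.translate (c • f) (h22es_D q))) : ℍ → ℂ) =
      c • ⇑(CuspForm.trace (h22es_G N) (CuspForm.translate f (h22es_D q)))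
    rw [CuspForm.coe_trace, CuspForm.coe_trace, Finset.smul_sum]
    refine Finset.sum_congr rfl fun x _ =>
      h22es_quotientFunc_smul (h22es_det_pos_of_mem_G N) c _ _ ?_ x
    show (⇑(c • f) : ℍ → ℂ) ∣[(2 : ℤ)] h22es_D q = c • (⇑f ∣[(2 : ℤ)] h22es_D q)
    rw [FunLike.coe_smul]
    exact Fermat.Agent.S22.smul_slash_of_det_pos (h22es_det_D_pos (NeZero.ne q)) 2 c _

/-! ### the values on an arbitrary system of representatives -/

lemma h22es_mapGL_mem_G {M : ℕ} (γ : Gamma0 M) :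
    Matrix.SpecialLinearGroup.mapGL ℝ (γ : SL(2, ℤ)) ∈ h22es_G M :=
  ⟨(γ : SL(2, ℤ)), γ.2, rfl⟩

lemma h22es_mapGL_injective :
    Function.Injective (Matrix.SpecialLinearGroup.mapGL ℝ : SL(2, ℤ) → GL (Fin 2) ℝ) :=
  Matrix.SpecialLinearGroup.mapGL_injective

/-- **`tr₁` on an arbitrary system of representatives of `Γ₀(Nq) \ Γ₀(N)`.** -/
theorem h22es_tr1_eq_sum (N q : ℕ) [NeZero N] [NeZero q] (g : CuspForm (Gamma0 (N * q)) 2)
    {ι : Type} [Fintype ι] (δ : ι → Gamma0 N) (hδ : h17lr_IsReps (h32_incl N q) δ) :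
    (⇑(h22es_tr1 N q g) : ℍ → ℂ) =
      ∑ i, (⇑g : ℍ → ℂ) ∣[(2 : ℤ)] Matrix.SpecialLinearGroup.mapGL ℝ ((δ i : Gamma0 N) : SL(2, ℤ)) := by
  show (⇑(CuspForm.trace (h22es_G N) g) : ℍ → ℂ) = _
  refine h22es_trace_eq_sum g (fun i => Matrix.SpecialLinearGroup.mapGL ℝ ((δ i : Gamma0 N) : SL(2, ℤ)))
    (fun i => h22es_mapGL_mem_G (δ i)) ?_ ?_
  · intro i j hij
    apply hδ.1
    obtain ⟨c, hc, hcm⟩ := hij
    have e : c = ((δ i * (δ j)⁻¹ : Gamma0 N) : SL(2, ℤ)) := by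
      apply h22es_mapGL_injective
      rw [hcm]
      simp
    refine ⟨⟨c, hc⟩, ?_⟩
    apply Subtype.ext
    rw [h32_incl_coe]
    exact e
  · intro x hx
    obtain ⟨γ', hγ', rfl⟩ := hx
    obtain ⟨i, c, hc⟩ := hδ.2 ⟨γ', hγ'⟩
    refine ⟨i, (c : SL(2, ℤ)), c.2, ?_⟩
    have e : ((c : Gamma0 (N * q)) : SL(2, ℤ)) = γ' * ((δ i : Gamma0 N) : SL(2, ℤ))⁻¹ := by
      have := congrArg (fun y : Gamma0 N => (y : SL(2, ℤ))) hc
      simpa [h32_incl_coe] using this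
    rw [e]
    simp

/-- `diag(1, q) * up c = c * diag(1, q)` over `ℤ`. -/
lemma h22es_diag_mul_up (N q : ℕ) [NeZero q] (c : Gamma0 (N * q)) :
    (!![(1 : ℤ), 0; 0, (q : ℤ)] : Matrix (Fin 2) (Fin 2) ℤ) *
        (((h32_up N q c : Gamma0 N) : SL(2, ℤ)) : Matrix (Fin 2) (Fin 2) ℤ) =
      ((c : SL(2, ℤ)) : Matrix (Fin 2) (Fin 2) ℤ) * !![(1 : ℤ), 0; 0, (q : ℤ)] := by
  have hmem := (h32_mem_Gamma0_iff (N * q) c.1).1 c.2
  have hq : (q : ℤ) ∣ (c : SL(2, ℤ)) 1 0 :=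
    Dvd.dvd.trans ⟨(N : ℤ), by push_cast; ring⟩ hmem
  obtain ⟨t, ht⟩ := hq
  have hq0 : (q : ℤ) ≠ 0 := Nat.cast_ne_zero.mpr (NeZero.ne q)
  have hup : (((h32_up N q c : Gamma0 N) : SL(2, ℤ)) : Matrix (Fin 2) (Fin 2) ℤ) =
      !![(c : SL(2, ℤ)) 0 0, q * (c : SL(2, ℤ)) 0 1; (c : SL(2, ℤ)) 1 0 / q, (c : SL(2, ℤ)) 1 1] :=
    rfl
  rw [hup]
  ext a b
  fin_cases a <;> fin_cases b
  · simp [Matrix.mul_apply, Fin.sum_univ_two]
  · simp [Matrix.mul_apply, Fin.sum_univ_two, mul_comm]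
  · simp only [Matrix.mul_apply, Fin.sum_univ_two]
    simp [ht, Int.mul_ediv_cancel_left _ hq0]
  · simp [Matrix.mul_apply, Fin.sum_univ_two, mul_comm]

lemma h22es_val_D_eq_map {q : ℕ} (hq : q ≠ 0) :
    ((h22es_D q : GL (Fin 2) ℝ) : Matrix (Fin 2) (Fin 2) ℝ) =
      (!![(1 : ℤ), 0; 0, (q : ℤ)] : Matrix (Fin 2) (Fin 2) ℤ).map (Int.castRingHom ℝ) := by
  rw [h22es_val_D hq]
  ext a b
  fin_cases a <;> fin_cases b <;> simp

/-- `diag(1, q) * up c = c * diag(1, q)` in `GL₂(ℝ)`. -/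
lemma h22es_D_mul_up (N q : ℕ) [NeZero q] (c : Gamma0 (N * q)) :
    h22es_D q * Matrix.SpecialLinearGroup.mapGL ℝ ((h32_up N q c : Gamma0 N) : SL(2, ℤ)) =
      Matrix.SpecialLinearGroup.mapGL ℝ (c : SL(2, ℤ)) * h22es_D q := by
  apply Units.ext
  rw [Units.val_mul, Units.val_mul, h22es_val_mapGL, h22es_val_mapGL,
    h22es_val_D_eq_map (NeZero.ne q), ← Matrix.map_mul, ← Matrix.map_mul, h22es_diag_mul_up]

lemma h22es_mem_G2_iff (M q : ℕ) (x : GL (Fin 2) ℝ) :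
    x ∈ h22es_G2 M q ↔ h22es_D q * x * (h22es_D q)⁻¹ ∈ h22es_G M := by
  rw [h22es_G2, Subgroup.mem_pointwise_smul_iff_inv_smul_mem, ← map_inv, inv_inv,
    ConjAct.toConjAct_smul]

/-- **`tr₂` on an arbitrary system of representatives of `up(Γ₀(Nq)) \ Γ₀(N)`.** -/
theorem h22es_tr2_eq_sum (N q : ℕ) [NeZero N] [NeZero q] (g : CuspForm (Gamma0 (N * q)) 2)
    {ι : Type} [Fintype ι] (δ : ι → Gamma0 N) (hδ : h17lr_IsReps (h32_up N q) δ) :
    (⇑(h22es_tr2 N q g) : ℍ → ℂ) =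
      ∑ i, ((⇑g : ℍ → ℂ) ∣[(2 : ℤ)] h22es_D q) ∣[(2 : ℤ)]
        Matrix.SpecialLinearGroup.mapGL ℝ ((δ i : Gamma0 N) : SL(2, ℤ)) := by
  show (⇑(CuspForm.trace (h22es_G N) (CuspForm.translate g (h22es_D q))) : ℍ → ℂ) = _
  refine h22es_trace_eq_sum (CuspForm.translate g (h22es_D q))
    (fun i => Matrix.SpecialLinearGroup.mapGL ℝ ((δ i : Gamma0 N) : SL(2, ℤ)))
    (fun i => h22es_mapGL_mem_G (δ i)) ?_ ?_
  · intro i j hij
    apply hδ.1
    rw [h22es_mem_G2_iff] at hij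
    obtain ⟨c, hc, hcm⟩ := hij
    refine ⟨⟨c, hc⟩, ?_⟩
    apply Subtype.ext
    apply h22es_mapGL_injective
    have h1 := h22es_D_mul_up N q ⟨c, hc⟩
    have h2 : Matrix.SpecialLinearGroup.mapGL ℝ ((h32_up N q ⟨c, hc⟩ : Gamma0 N) : SL(2, ℤ)) =
        (h22es_D q)⁻¹ * Matrix.SpecialLinearGroup.mapGL ℝ c * h22es_D q := by
      rw [mul_assoc, ← h1, inv_mul_cancel_left]
    rw [h2, hcm]
    simp [mul_assoc]
  · intro x hx
    obtain ⟨γ', hγ', rfl⟩ := hx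
    obtain ⟨i, c, hc⟩ := hδ.2 ⟨γ', hγ'⟩
    refine ⟨i, ?_⟩
    rw [h22es_mem_G2_iff]
    refine ⟨(c : SL(2, ℤ)), c.2, ?_⟩
    have e : ((h32_up N q c : Gamma0 N) : SL(2, ℤ)) = γ' * ((δ i : Gamma0 N) : SL(2, ℤ))⁻¹ := by
      have := congrArg (fun y : Gamma0 N => (y : SL(2, ℤ))) hc
      simpa using this
    have h1 := h22es_D_mul_up N q c
    rw [e] at h1
    have h2 : Matrix.SpecialLinearGroup.mapGL ℝ (c : SL(2, ℤ)) =
        h22es_D q * Matrix.SpecialLinearGroup.mapGL ℝ (γ' * ((δ i : Gamma0 N) : SL(2, ℤ))⁻¹) *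
          (h22es_D q)⁻¹ := by
      rw [h1, mul_inv_cancel_right]
    rw [h2, map_mul, map_inv]

/-! ### the period map intertwines the traces with the transfers -/

lemma h22es_toGL_SL (δ : SL(2, ℤ)) :
    h22es_toGL (δ : Matrix (Fin 2) (Fin 2) ℤ) = Matrix.SpecialLinearGroup.mapGL ℝ δ := by
  have hd : (0 : ℤ) < (δ : Matrix (Fin 2) (Fin 2) ℤ).det := by
    rw [δ.det_coe]; exact one_pos
  apply Units.ext
  rw [h22es_val_toGL hd, h22es_val_mapGL]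

/-- in a decomposition `δ_i γ = f (c_i) δ_{π i}` along a system of representatives, `π` is a
permutation. -/
lemma h22es_bijective_of_isReps {H Γ : Type*} [Group H] [Group Γ] (f : H →* Γ) {ι : Type}
    [Fintype ι] (δ : ι → Γ) (hδ : h17lr_IsReps f δ) (γ : Γ) (π : ι → ι) (c : ι → H)
    (hdec : ∀ i, δ i * γ = f (c i) * δ (π i)) : Function.Bijective π := by
  apply Finite.injective_iff_bijective.mp
  intro i j hij
  apply hδ.1
  refine ⟨c i * (c j)⁻¹, ?_⟩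
  have h1 : δ i = f (c i) * δ (π i) * γ⁻¹ := by rw [← hdec i, mul_inv_cancel_right]
  have h2 : δ j = f (c j) * δ (π i) * γ⁻¹ := by rw [hij, ← hdec j, mul_inv_cancel_right]
  rw [h1, h2, map_mul, map_inv]
  group

/-- **(H-C1)** the period map intertwines `tr₁` with the transfer along `Γ₀(Nq) ≤ Γ₀(N)`. -/
theorem h22es_isCor_tr1 (N q : ℕ) [NeZero N] [NeZero q] (g : CuspForm (Gamma0 (N * q)) 2) :
    h17lr_IsCor (h32_incl N q) (periodMap (N * q) g) (periodMap N (h22es_tr1 N q g)) := by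
  intro ι _ δ π c γ hδ hdec
  refine h22es_period_dc (M := N * q) (N := N)
    (fun i => (((δ i : Gamma0 N) : SL(2, ℤ)) : Matrix (Fin 2) (Fin 2) ℤ)) ?_ g
    (h22es_tr1 N q g) ?_ γ π (h22es_bijective_of_isReps _ δ hδ γ π c hdec) c ?_
  · intro i
    rw [Matrix.SpecialLinearGroup.det_coe]
    exact one_pos
  · intro τ
    rw [h22es_tr1_eq_sum N q g δ hδ, Finset.sum_apply]
    refine Finset.sum_congr rfl fun i _ => ?_
    rw [h22es_toGL_SL]
  · intro i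
    have h := congrArg (fun y : Gamma0 N => ((y : SL(2, ℤ)) : Matrix (Fin 2) (Fin 2) ℤ)) (hdec i)
    simpa [h32_incl_coe] using h

/-- **(H-C2)** the period map intertwines `tr₂` with the transfer along
`up : Γ₀(Nq) → Γ₀(N)`. -/
theorem h22es_isCor_tr2 (N q : ℕ) [NeZero N] [NeZero q] (g : CuspForm (Gamma0 (N * q)) 2) :
    h17lr_IsCor (h32_up N q) (periodMap (N * q) g) (periodMap N (h22es_tr2 N q g)) := by
  intro ι _ δ π c γ hδ hdec
  have hq0 : (0 : ℤ) < (q : ℤ) := by exact_mod_cast Nat.pos_of_ne_zero (NeZero.ne q)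
  have hdet : ∀ i, (0 : ℤ) < ((!![(1 : ℤ), 0; 0, (q : ℤ)] : Matrix (Fin 2) (Fin 2) ℤ) *
      (((δ i : Gamma0 N) : SL(2, ℤ)) : Matrix (Fin 2) (Fin 2) ℤ)).det := by
    intro i
    rw [Matrix.det_mul, Matrix.SpecialLinearGroup.det_coe, Matrix.det_fin_two_of]
    simpa using hq0
  have hGL : ∀ i, h22es_toGL ((!![(1 : ℤ), 0; 0, (q : ℤ)] : Matrix (Fin 2) (Fin 2) ℤ) *
      (((δ i : Gamma0 N) : SL(2, ℤ)) : Matrix (Fin 2) (Fin 2) ℤ)) =
      h22es_D q * Matrix.SpecialLinearGroup.mapGL ℝ ((δ i : Gamma0 N) : SL(2, ℤ)) := by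
    intro i
    apply Units.ext
    rw [h22es_val_toGL (hdet i), Units.val_mul, h22es_val_mapGL,
      h22es_val_D_eq_map (NeZero.ne q), Matrix.map_mul]
  refine h22es_period_dc (M := N * q) (N := N)
    (fun i => (!![(1 : ℤ), 0; 0, (q : ℤ)] : Matrix (Fin 2) (Fin 2) ℤ) *
      (((δ i : Gamma0 N) : SL(2, ℤ)) : Matrix (Fin 2) (Fin 2) ℤ)) hdet g
    (h22es_tr2 N q g) ?_ γ π (h22es_bijective_of_isReps _ δ hδ γ π c hdec) c ?_
  · intro τ
    rw [h22es_tr2_eq_sum N q g δ hδ, Finset.sum_apply]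
    refine Finset.sum_congr rfl fun i _ => ?_
    rw [hGL, SlashAction.slash_mul]
  · intro i
    have h := congrArg (fun y : Gamma0 N => ((y : SL(2, ℤ)) : Matrix (Fin 2) (Fin 2) ℤ)) (hdec i)
    simp only [Subgroup.coe_mul, Matrix.SpecialLinearGroup.coe_mul] at h
    rw [Matrix.mul_assoc, h, ← Matrix.mul_assoc, h22es_diag_mul_up, Matrix.mul_assoc]

end

end Fermat.Agent.LR.ES
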