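import Fermat.Agent.LR.ES.Out80Cor
import Fermat.Agent.LR.ES.Trace
import Fermat.Agent.LR.CohResT81
import Fermat.Agent.Jac.Per
import Fermat.Agent.S21

/-!
# P-LR, LR-ES (second seat helper80): the OUTPUT direction of Eichler–Shimura

A nonzero parabolic `ψ : Γ₀(Nq) → ℂ`, eigen for the cohomological `T_ℓ` (`ℓ ∈ S`) and killed by
both transfers to level `N`, comes from a nonzero cusp form `g` of level `Nq`, eigen for the
`T_ℓ` with the same eigenvalues, killed by both traces to level `N`.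

* `h80e_InvHecke`: item (i), `charInvolution` commutes with the cohomological `T_ℓ`
  (a hypothesis here);
* `h80e_output_core`: item (iv) for abstract traces `tr1`, `tr2` satisfying (H-C1), (H-C2);
* `h80e_output`: item (iv) for `h22es_tr1`, `h22es_tr2`.
-/

set_option autoImplicit false

open ModularCurve ModularCurve.Period CongruenceSubgroup
open scoped MatrixGroups

noncomputable section

namespace Fermat.Agent.LR

open Fermat.Agent.Jac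

/-- item (i): the involution `ι` commutes with the cohomological Hecke operators. -/
def h80e_InvHecke : Prop :=
  ∀ (M ℓ : ℕ), ℓ.Prime → ∀ (φ φ' : Additive (Gamma0 M) →+ ℂ), IsCohHeckeAdd M ℓ φ φ' →
    IsCohHeckeAdd M ℓ (charInvolution M ℂ ℂ φ) (charInvolution M ℂ ℂ φ')

/-! ## additivity of the relations -/

theorem h80e_hecke_add {M ℓ : ℕ} {A : Type*} [AddCommMonoid A]
    {φ φ' ψ ψ' : Additive (Gamma0 M) →+ A}
    (h : IsCohHeckeAdd M ℓ φ φ') (h' : IsCohHeckeAdd M ℓ ψ ψ') :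
    IsCohHeckeAdd M ℓ (φ + ψ) (φ' + ψ') := by
  intro γ π c hd
  rw [AddMonoidHom.add_apply, h γ π c hd, h' γ π c hd, ← Finset.sum_add_distrib]
  rfl

theorem h80e_hecke_sub {M ℓ : ℕ} {A : Type*} [AddCommGroup A]
    {φ φ' ψ ψ' : Additive (Gamma0 M) →+ A}
    (h : IsCohHeckeAdd M ℓ φ φ') (h' : IsCohHeckeAdd M ℓ ψ ψ') :
    IsCohHeckeAdd M ℓ (φ - ψ) (φ' - ψ') := by
  intro γ π c hd
  rw [AddMonoidHom.sub_apply, h γ π c hd, h' γ π c hd, ← Finset.sum_sub_distrib]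
  rfl

theorem h80e_cor_add {H Γ : Type*} [Group H] [Group Γ] {f : H →* Γ} {A : Type*}
    [AddCommMonoid A] {y y' : Additive H →+ A} {z z' : Additive Γ →+ A}
    (h : h17lr_IsCor f y z) (h' : h17lr_IsCor f y' z') : h17lr_IsCor f (y + y') (z + z') := by
  intro ι _ δ π c γ hδ hd
  rw [AddMonoidHom.add_apply, h ι δ π c γ hδ hd, h' ι δ π c γ hδ hd, ← Finset.sum_add_distrib]
  rfl

theorem h80e_cor_sub {H Γ : Type*} [Group H] [Group Γ] {f : H →* Γ} {A : Type*}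
    [AddCommGroup A] {y y' : Additive H →+ A} {z z' : Additive Γ →+ A}
    (h : h17lr_IsCor f y z) (h' : h17lr_IsCor f y' z') : h17lr_IsCor f (y - y') (z - z') := by
  intro ι _ δ π c γ hδ hd
  rw [AddMonoidHom.sub_apply, h ι δ π c γ hδ hd, h' ι δ π c γ hδ hd, ← Finset.sum_sub_distrib]
  rfl

/-! ## the pair map -/

theorem h80e_pair_apply (M : ℕ) [NeZero M] (a b : CuspForm (Gamma0 M) 2) :
    periodHomPair M (a, b)
      = (periodMap M a + charInvolution M ℂ ℂ (periodMap M a))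
        + (periodMap M b - charInvolution M ℂ ℂ (periodMap M b)) := by
  obtain ⟨pml, hpml, hdef⟩ := periodHomPair_def M (Fermat.Agent.S21.existsPeriodMapLinear M)
  rw [hdef]
  simp only [LinearMap.coprod_apply, LinearMap.comp_apply, LinearMap.add_apply,
    LinearMap.sub_apply, LinearMap.id_apply, hpml]

theorem h80e_hecke_pair (hInv : h80e_InvHecke) (M : ℕ) [NeZero M] {ℓ : ℕ} (hℓ : ℓ.Prime)
    (hℓM : ¬ ℓ ∣ M) (a b : CuspForm (Gamma0 M) 2) :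
    IsCohHeckeAdd M ℓ (periodHomPair M (a, b))
      (periodHomPair M (CuspForm.heckeTLin 2 hℓ hℓM a, CuspForm.heckeTLin 2 hℓ hℓM b)) := by
  rw [h80e_pair_apply, h80e_pair_apply]
  have ha := periodHecke M ℓ hℓ hℓM a
  have hb := periodHecke M ℓ hℓ hℓM b
  exact h80e_hecke_add (h80e_hecke_add ha (hInv M ℓ hℓ _ _ ha))
    (h80e_hecke_sub hb (hInv M ℓ hℓ _ _ hb))

theorem h80e_cor1_pair (N q : ℕ) [NeZero N] [NeZero q]
    (tr1 : CuspForm (Gamma0 (N * q)) 2 → CuspForm (Gamma0 N) 2)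
    (hC1 : ∀ g, h17lr_IsCor (h32_incl N q) (periodMap (N * q) g) (periodMap N (tr1 g)))
    (a b : CuspForm (Gamma0 (N * q)) 2) :
    h17lr_IsCor (h32_incl N q) (periodHomPair (N * q) (a, b))
      (periodHomPair N (tr1 a, tr1 b)) := by
  rw [h80e_pair_apply, h80e_pair_apply]
  exact h80e_cor_add (h80e_cor_add (hC1 a) (h80e_isCor1_charInvolution N q (hC1 a)))
    (h80e_cor_sub (hC1 b) (h80e_isCor1_charInvolution N q (hC1 b)))

theorem h80e_cor2_pair (N q : ℕ) [NeZero N] [NeZero q]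
    (tr2 : CuspForm (Gamma0 (N * q)) 2 → CuspForm (Gamma0 N) 2)
    (hC2 : ∀ g, h17lr_IsCor (h32_up N q) (periodMap (N * q) g) (periodMap N (tr2 g)))
    (a b : CuspForm (Gamma0 (N * q)) 2) :
    h17lr_IsCor (h32_up N q) (periodHomPair (N * q) (a, b))
      (periodHomPair N (tr2 a, tr2 b)) := by
  rw [h80e_pair_apply, h80e_pair_apply]
  exact h80e_cor_add (h80e_cor_add (hC2 a) (h80e_isCor2_charInvolution N q (hC2 a)))
    (h80e_cor_sub (hC2 b) (h80e_isCor2_charInvolution N q (hC2 b)))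

/-! ## (iv) OUTPUT -/

/-- **(iv)**, abstract traces. -/
theorem h80e_output_core (hInv : h80e_InvHecke) (N q : ℕ) [NeZero N] [NeZero q]
    (hq : q.Prime) (hqN : ¬ q ∣ N)
    (tr1 tr2 : CuspForm (Gamma0 (N * q)) 2 → CuspForm (Gamma0 N) 2)
    (hC1 : ∀ g, h17lr_IsCor (h32_incl N q) (periodMap (N * q) g) (periodMap N (tr1 g)))
    (hC2 : ∀ g, h17lr_IsCor (h32_up N q) (periodMap (N * q) g) (periodMap N (tr2 g)))
    (ψ : Additive (Gamma0 (N * q)) →+ ℂ)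
    (hpar : ψ ∈ Period.parabolicHoms ℂ (Gamma0 (N * q)) ℂ) (hψ : ψ ≠ 0)
    (lam : ℕ → ℂ) (S : Set ℕ)
    (heig : ∀ ℓ ∈ S, ℓ.Prime → ¬ ℓ ∣ N * q → IsCohHeckeAdd (N * q) ℓ ψ (lam ℓ • ψ))
    (h1 : h17lr_IsCor (h32_incl N q) ψ 0) (h2 : h17lr_IsCor (h32_up N q) ψ 0) :
    ∃ g : CuspForm (Gamma0 (N * q)) 2, g ≠ 0 ∧
      (∀ ℓ ∈ S, ∀ (hℓ : ℓ.Prime) (hℓN : ¬ ℓ ∣ N * q),
        CuspForm.heckeTLin 2 hℓ hℓN g = lam ℓ • g) ∧
      tr1 g = 0 ∧ tr2 g = 0 := by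
  obtain ⟨hinjM, hrangeM⟩ := Fermat.Agent.S21.result (N * q)
  obtain ⟨hinjN, -⟩ := Fermat.Agent.S21.result N
  have hmem : ψ ∈ LinearMap.range (periodHomPair (N * q)) := by
    rw [hrangeM]
    exact hpar
  obtain ⟨⟨g1, g2⟩, hg⟩ := hmem
  -- Hecke eigen-equations
  have hT : ∀ ℓ ∈ S, ∀ (hℓ : ℓ.Prime) (hℓN : ¬ ℓ ∣ N * q),
      CuspForm.heckeTLin 2 hℓ hℓN g1 = lam ℓ • g1 ∧
        CuspForm.heckeTLin 2 hℓ hℓN g2 = lam ℓ • g2 := by
    intro ℓ hℓS hℓ hℓN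
    have e1 := h80e_hecke_pair hInv (N * q) hℓ hℓN g1 g2
    rw [hg] at e1
    have e2 := h81r_cohHecke_unique hℓ hℓN e1 (heig ℓ hℓS hℓ hℓN)
    rw [← hg, ← map_smul, Prod.smul_mk] at e2
    have e3 := hinjM e2
    exact ⟨congrArg Prod.fst e3, congrArg Prod.snd e3⟩
  -- traces
  have hz : periodHomPair N (0, 0) = 0 := map_zero _
  have htr1 : tr1 g1 = 0 ∧ tr1 g2 = 0 := by
    have e1 := h80e_cor1_pair N q tr1 hC1 g1 g2
    rw [hg] at e1
    have e2 := h80e_cor1_unique hq hqN e1 h1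
    rw [← hz] at e2
    have e3 := hinjN e2
    exact ⟨congrArg Prod.fst e3, congrArg Prod.snd e3⟩
  have htr2 : tr2 g1 = 0 ∧ tr2 g2 = 0 := by
    have e1 := h80e_cor2_pair N q tr2 hC2 g1 g2
    rw [hg] at e1
    have e2 := h80e_cor2_unique hq hqN e1 h2
    rw [← hz] at e2
    have e3 := hinjN e2
    exact ⟨congrArg Prod.fst e3, congrArg Prod.snd e3⟩
  by_cases hg1 : g1 = 0
  · have hg2 : g2 ≠ 0 := by
      intro hg2
      apply hψ
      rw [← hg, hg1, hg2]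
      exact map_zero _
    exact ⟨g2, hg2, fun ℓ hℓS hℓ hℓN => (hT ℓ hℓS hℓ hℓN).2, htr1.2, htr2.2⟩
  · exact ⟨g1, hg1, fun ℓ hℓS hℓ hℓN => (hT ℓ hℓS hℓ hℓN).1, htr1.1, htr2.1⟩

/-- **(iv)** for the traces `h22es_tr1`, `h22es_tr2`. -/
theorem h80e_output (hInv : h80e_InvHecke) (N q : ℕ) [NeZero N] [NeZero q]
    (hq : q.Prime) (hqN : ¬ q ∣ N)
    (ψ : Additive (Gamma0 (N * q)) →+ ℂ)
    (hpar : ψ ∈ Period.parabolicHoms ℂ (Gamma0 (N * q)) ℂ) (hψ : ψ ≠ 0)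
    (lam : ℕ → ℂ) (S : Set ℕ)
    (heig : ∀ ℓ ∈ S, ℓ.Prime → ¬ ℓ ∣ N * q → IsCohHeckeAdd (N * q) ℓ ψ (lam ℓ • ψ))
    (h1 : h17lr_IsCor (h32_incl N q) ψ 0) (h2 : h17lr_IsCor (h32_up N q) ψ 0) :
    ∃ g : CuspForm (Gamma0 (N * q)) 2, g ≠ 0 ∧
      (∀ ℓ ∈ S, ∀ (hℓ : ℓ.Prime) (hℓN : ¬ ℓ ∣ N * q),
        CuspForm.heckeTLin 2 hℓ hℓN g = lam ℓ • g) ∧
      ES.h22es_tr1 N q g = 0 ∧ ES.h22es_tr2 N q g = 0 :=
  h80e_output_core hInv N q hq hqN (fun g => ES.h22es_tr1 N q g) (fun g => ES.h22es_tr2 N q g)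
    (ES.h22es_isCor_tr1 N q) (ES.h22es_isCor_tr2 N q) ψ hpar hψ lam S heig h1 h2

end Fermat.Agent.LR
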