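import Fermat.Agent.LR.CohReps
import Fermat.Prelude.Def_ModularCurve_PeriodHomPair

/-!
# P-LR, LR-ES (second seat helper80): transfers, uniqueness and the involution `ι`

* `h80e_cor1_unique`, `h80e_cor2_unique`: the relational transfer `h17lr_IsCor` along
  `h32_incl N q` / `h32_up N q` determines its value (item (iii));
* `h80e_isCor_comp`: transport of `h17lr_IsCor f` under a pair of involutive automorphisms
  commuting with `f`;
* `h80e_isCor1_charInvolution`, `h80e_isCor2_charInvolution`: the transfers commute with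
  `charInvolution` (item (ii)).
-/

set_option autoImplicit false

open ModularCurve ModularCurve.Period CongruenceSubgroup
open scoped MatrixGroups

noncomputable section

namespace Fermat.Agent.LR

/-! ## (iii) uniqueness -/

theorem h80e_cor1_unique {N q : ℕ} [NeZero q] (hq : q.Prime) (hqN : ¬ q ∣ N)
    {A : Type*} [AddCommMonoid A] {y : Additive (Gamma0 (N * q)) →+ A}
    {z z' : Additive (Gamma0 N) →+ A}
    (h : h17lr_IsCor (h32_incl N q) y z) (h' : h17lr_IsCor (h32_incl N q) y z') : z = z' := by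
  obtain ⟨x, y0, hxy⟩ := h17lr_exists_bezout hq hqN
  exact h17lr_cor_unique (h17lr_isReps_rho hq hqN x y0 hxy) h h'

theorem h80e_cor2_unique {N q : ℕ} [NeZero q] (hq : q.Prime) (hqN : ¬ q ∣ N)
    {A : Type*} [AddCommMonoid A] {y : Additive (Gamma0 (N * q)) →+ A}
    {z z' : Additive (Gamma0 N) →+ A}
    (h : h17lr_IsCor (h32_up N q) y z) (h' : h17lr_IsCor (h32_up N q) y z') : z = z' := by
  obtain ⟨x, y0, hxy⟩ := h17lr_exists_bezout hq hqN
  exact h17lr_cor_unique (h17lr_isReps_tau hq hqN x y0 hxy) h h'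

/-! ## (ii) the involution -/

/-- transport of the relational transfer under involutive automorphisms commuting with `f`. -/
theorem h80e_isCor_comp {H Γ : Type*} [Group H] [Group Γ] (f : H →* Γ) (jH : H →* H)
    (jΓ : Γ →* Γ) (hinv : ∀ γ, jΓ (jΓ γ) = γ) (hcomm : ∀ h, jΓ (f h) = f (jH h))
    {A : Type*} [AddCommMonoid A] {y : Additive H →+ A} {z : Additive Γ →+ A}
    (h : h17lr_IsCor f y z) :
    h17lr_IsCor f (y.comp (MonoidHom.toAdditive jH)) (z.comp (MonoidHom.toAdditive jΓ)) := by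
  intro ι _ δ π c γ hδ hdec
  have hδ' : h17lr_IsReps f (fun i => jΓ (δ i)) := by
    constructor
    · intro i j hij
      apply hδ.1
      obtain ⟨h0, hh0⟩ := hij
      refine ⟨jH h0, ?_⟩
      rw [← hcomm, hh0, map_mul, map_inv, hinv, hinv]
    · intro γ'
      obtain ⟨i, h0, hh0⟩ := hδ.2 (jΓ γ')
      refine ⟨i, jH h0, ?_⟩
      rw [← hcomm, hh0, map_mul, map_inv, hinv]
  have hdec' : ∀ i, jΓ (δ i) * jΓ γ = f (jH (c i)) * jΓ (δ (π i)) := by
    intro i
    rw [← map_mul, hdec i, map_mul, hcomm]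
  exact h ι (fun i => jΓ (δ i)) π (fun i => jH (c i)) (jΓ γ) hδ' hdec'

theorem h80e_jConj_incl (N q : ℕ) (h : Gamma0 (N * q)) :
    jConjGamma0 N (h32_incl N q h) = h32_incl N q (jConjGamma0 (N * q) h) := rfl

theorem h80e_coe_up (N q : ℕ) [NeZero q] (h : Gamma0 (N * q)) :
    (((h32_up N q h : Gamma0 N) : SL(2, ℤ)) : Matrix (Fin 2) (Fin 2) ℤ)
      = !![(h : SL(2, ℤ)) 0 0, q * (h : SL(2, ℤ)) 0 1;
          (h : SL(2, ℤ)) 1 0 / q, (h : SL(2, ℤ)) 1 1] := rfl

theorem h80e_jConj_up (N q : ℕ) [NeZero q] (h : Gamma0 (N * q)) :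
    jConjGamma0 N (h32_up N q h) = h32_up N q (jConjGamma0 (N * q) h) := by
  have hmem := (h32_mem_Gamma0_iff (N * q) h.1).1 h.2
  have hq : (q : ℤ) ∣ (h : SL(2, ℤ)) 1 0 :=
    Dvd.dvd.trans ⟨(N : ℤ), by push_cast; ring⟩ hmem
  have key : jConjMat (((h32_up N q h : Gamma0 N) : SL(2, ℤ)) : Matrix (Fin 2) (Fin 2) ℤ)
      = (((h32_up N q (jConjGamma0 (N * q) h) : Gamma0 N) : SL(2, ℤ)) :
          Matrix (Fin 2) (Fin 2) ℤ) := by
    rw [h80e_coe_up, h80e_coe_up]
    ext i j
    fin_cases i <;> fin_cases j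
    · simp [jConjMat]
    · simp [jConjMat]
    · simp [jConjMat, Int.neg_ediv_of_dvd hq]
    · simp [jConjMat]
  apply Subtype.ext
  apply Subtype.ext
  exact key

/-- **(ii)** for the inclusion. -/
theorem h80e_isCor1_charInvolution (N q : ℕ) {R : Type*} [Semiring R] {A : Type*}
    [AddCommGroup A] [Module R A] {y : Additive (Gamma0 (N * q)) →+ A}
    {z : Additive (Gamma0 N) →+ A} (h : h17lr_IsCor (h32_incl N q) y z) :
    h17lr_IsCor (h32_incl N q) (charInvolution (N * q) R A y) (charInvolution N R A z) :=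
  h80e_isCor_comp (h32_incl N q) (jConjGamma0 (N * q)) (jConjGamma0 N)
    (jConjGamma0_jConjGamma0 N) (h80e_jConj_incl N q) h

/-- **(ii)** for `up`. -/
theorem h80e_isCor2_charInvolution (N q : ℕ) [NeZero q] {R : Type*} [Semiring R] {A : Type*}
    [AddCommGroup A] [Module R A] {y : Additive (Gamma0 (N * q)) →+ A}
    {z : Additive (Gamma0 N) →+ A} (h : h17lr_IsCor (h32_up N q) y z) :
    h17lr_IsCor (h32_up N q) (charInvolution (N * q) R A y) (charInvolution N R A z) :=
  h80e_isCor_comp (h32_up N q) (jConjGamma0 (N * q)) (jConjGamma0 N)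
    (jConjGamma0_jConjGamma0 N) (h80e_jConj_up N q) h

end Fermat.Agent.LR
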