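import Fermat.Agent.LR.ES.Out80

/-!
# P-LR, LR-ES (second seat helper80): item (i), `charInvolution` commutes with `T_ℓ`

`j β_i = w_i β_{σ i}` for the Hecke representatives `β = heckeRep ℓ`, where `j` is conjugation
by `diag(1, -1)`, `σ 0 = 0`, `σ i = ℓ - i` (`0 < i < ℓ`), `σ ℓ = ℓ` and `w_i ∈ {1, [[1,-1],[0,1]]}`.
Hence the families `β` and `j β` define the same operator (`h17lr_op_of_equiv`), which is
the claim.

* `h80e_invHecke_gen`: any coefficient group;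
* `h80e_invHecke : h80e_InvHecke`;
* `h80e_output'`: the unconditional item (iv).
-/

set_option autoImplicit false

open ModularCurve ModularCurve.Period CongruenceSubgroup
open scoped MatrixGroups

noncomputable section

namespace Fermat.Agent.LR

open Fermat.Agent.Jac

/-- the permutation `i ↦ -i mod ℓ` of the finite representatives, fixing `∞`. -/
def h80e_sig (ℓ : ℕ) (i : Fin (ℓ + 1)) : Fin (ℓ + 1) :=
  ⟨if (i : ℕ) < ℓ then (if (i : ℕ) = 0 then 0 else ℓ - i) else ℓ, by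
    split_ifs <;> omega⟩

theorem h80e_sig_val (ℓ : ℕ) (i : Fin (ℓ + 1)) :
    ((h80e_sig ℓ i : Fin (ℓ + 1)) : ℕ)
      = if (i : ℕ) < ℓ then (if (i : ℕ) = 0 then 0 else ℓ - i) else ℓ := rfl

theorem h80e_sig_sig (ℓ : ℕ) (i : Fin (ℓ + 1)) : h80e_sig ℓ (h80e_sig ℓ i) = i := by
  apply Fin.ext
  have hi := i.2
  rw [h80e_sig_val, h80e_sig_val]
  split_ifs <;> omega

theorem h80e_sig_bijective (ℓ : ℕ) : Function.Bijective (h80e_sig ℓ) :=
  Function.Involutive.bijective (h80e_sig_sig ℓ)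

/-- the correcting unipotent: `1` for `i = 0, ∞`, `[[1, -1], [0, 1]]` otherwise. -/
def h80e_w (M ℓ : ℕ) (i : Fin (ℓ + 1)) : Gamma0 M :=
  h17_mk M 1 (if (i : ℕ) < ℓ then (if (i : ℕ) = 0 then 0 else -1) else 0) 0 1 (by ring)
    (dvd_zero _)

theorem h80e_jConj_heckeRep (M ℓ : ℕ) (i : Fin (ℓ + 1)) :
    jConjMat (heckeRep ℓ i)
      = h17lr_coe (Gamma0 M) (h80e_w M ℓ i) * heckeRep ℓ (h80e_sig ℓ i) := by
  have hi := i.2
  rw [h17lr_coe_apply, h80e_w, h17_mk_coe]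
  by_cases h : (i : ℕ) < ℓ
  · have hs : ((h80e_sig ℓ i : Fin (ℓ + 1)) : ℕ) < ℓ := by
      rw [h80e_sig_val]
      split_ifs <;> omega
    rw [h17_heckeRep_lt i h, h17_heckeRep_lt _ hs, if_pos h, h80e_sig_val, if_pos h]
    by_cases h0 : (i : ℕ) = 0
    · rw [if_pos h0, if_pos h0, h0]
      ext a b
      fin_cases a <;> fin_cases b <;> simp [jConjMat]
    · rw [if_neg h0, if_neg h0]
      have hle : (i : ℕ) ≤ ℓ := h.le
      ext a b
      fin_cases a <;> fin_cases b <;> simp [jConjMat, Nat.cast_sub hle]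
      ring
  · have hs : ¬ ((h80e_sig ℓ i : Fin (ℓ + 1)) : ℕ) < ℓ := by
      rw [h80e_sig_val, if_neg h]
      omega
    rw [h17_heckeRep_last i h, h17_heckeRep_last _ hs, if_neg h]
    ext a b
    fin_cases a <;> fin_cases b <;> simp [jConjMat]

/-- **(i)**, any coefficient group. -/
theorem h80e_invHecke_gen {M ℓ : ℕ} (hℓ : ℓ.Prime) {A : Type*} [AddCommGroup A]
    {φ φ' : Additive (Gamma0 M) →+ A} (h : IsCohHeckeAdd M ℓ φ φ') :
    IsCohHeckeAdd M ℓ (φ.comp (MonoidHom.toAdditive (jConjGamma0 M)))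
      (φ'.comp (MonoidHom.toAdditive (jConjGamma0 M))) := by
  have hF : h17lr_Free (h17lr_coe (Gamma0 M)) (heckeRep ℓ) := h17lr_free_heckeRep M hℓ
  have hF' : h17lr_Free (h17lr_coe (Gamma0 M)) (fun i => jConjMat (heckeRep ℓ i)) :=
    h17lr_free_of_cover hF (h80e_sig ℓ) (h80e_sig_bijective ℓ).1 (h80e_w M ℓ)
      (h80e_jConj_heckeRep M ℓ)
  have hop : h17lr_IsOp (h17lr_coe (Gamma0 M)) (h17lr_coe (Gamma0 M))
      (fun i => jConjMat (heckeRep ℓ i)) φ φ' :=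
    h17lr_op_of_equiv hF' (h80e_sig ℓ) (h80e_sig_bijective ℓ) (h80e_w M ℓ)
      (h80e_jConj_heckeRep M ℓ) (h17lr_isCohHeckeAdd_iff.mp h)
  intro γ π c hd
  refine hop (jConjGamma0 M γ) π (fun i => jConjGamma0 M (c i)) ?_
  intro i
  show jConjMat (heckeRep ℓ i) * jConjMat ((γ : SL(2, ℤ)) : Matrix (Fin 2) (Fin 2) ℤ)
    = jConjMat ((c i : SL(2, ℤ)) : Matrix (Fin 2) (Fin 2) ℤ) * jConjMat (heckeRep ℓ (π i))
  rw [← jConjMat_mul, ← jConjMat_mul, hd i]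

/-- **(i)** -/
theorem h80e_invHecke : h80e_InvHecke := fun _ _ hℓ _ _ h => h80e_invHecke_gen hℓ h

/-- **(iv)**, unconditional: a nonzero parabolic `ψ : Γ₀(Nq) → ℂ`, eigen for the
cohomological `T_ℓ` (`ℓ ∈ S`) and killed by both transfers to level `N`, comes from a nonzero
cusp form of level `Nq`, eigen for the `T_ℓ` with the same eigenvalues and killed by both
traces to level `N`. -/
theorem h80e_output' (N q : ℕ) [NeZero N] [NeZero q] (hq : q.Prime) (hqN : ¬ q ∣ N)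
    (ψ : Additive (Gamma0 (N * q)) →+ ℂ)
    (hpar : ψ ∈ Period.parabolicHoms ℂ (Gamma0 (N * q)) ℂ) (hψ : ψ ≠ 0)
    (lam : ℕ → ℂ) (S : Set ℕ)
    (heig : ∀ ℓ ∈ S, ℓ.Prime → ¬ ℓ ∣ N * q → IsCohHeckeAdd (N * q) ℓ ψ (lam ℓ • ψ))
    (h1 : h17lr_IsCor (h32_incl N q) ψ 0) (h2 : h17lr_IsCor (h32_up N q) ψ 0) :
    ∃ g : CuspForm (Gamma0 (N * q)) 2, g ≠ 0 ∧
      (∀ ℓ ∈ S, ∀ (hℓ : ℓ.Prime) (hℓN : ¬ ℓ ∣ N * q),
        CuspForm.heckeTLin 2 hℓ hℓN g = lam ℓ • g) ∧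
      ES.h22es_tr1 N q g = 0 ∧ ES.h22es_tr2 N q g = 0 :=
  h80e_output h80e_invHecke N q hq hqN ψ hpar hψ lam S heig h1 h2

end Fermat.Agent.LR
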