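import Fermat.Agent.Jac.Per

/-!
# P-LR, LR-ES: the period map intertwines double coset operators (helper22)

General form of `Fermat.Agent.Jac.periodHecke`.  Let `g ∈ S₂(Γ₀(M))`, `h ∈ S₂(Γ₀(N))` and let
`β : I → M₂(ℤ)` be a finite family of integer matrices of positive determinant with
`h = ∑ i, g ∣[2] β i` (as functions on `ℍ`).  If `γ ∈ Γ₀(N)`, `π` is a permutation of `I` and
`c i ∈ Γ₀(M)` satisfy `β i * γ = c i * β (π i)`, then

`periodMap N h γ = ∑ i, periodMap M g (c i)`.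

This covers `T_ℓ`, `U_r`, the two restrictions, the two transfers (traces) between the levels
`N q` and `N`, and the Atkin-Lehner involution.
-/

set_option autoImplicit false

open UpperHalfPlane hiding I
open Complex Filter Function Topology
open scoped Manifold MatrixGroups ModularForm
open ModularCurve ModularCurve.Period CongruenceSubgroup
open Fermat.Agent.S22 Fermat.Agent.S21.P

namespace Fermat.Agent.LR.ES

noncomputable section

local notation "𝔻" => Derivative.normalizedDerivOfComplex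

/-- an integer matrix of positive determinant as an element of `GL₂(ℝ)` (junk value `1`
otherwise). -/
def h22es_toGL (B : Matrix (Fin 2) (Fin 2) ℤ) : GL (Fin 2) ℝ :=
  if h : 0 < B.det then
    Matrix.GeneralLinearGroup.mkOfDetNeZero (B.map (Int.castRingHom ℝ)) (by
      have e : (B.map (Int.castRingHom ℝ)).det = ((B.det : ℤ) : ℝ) := by
        rw [Matrix.det_fin_two, Matrix.det_fin_two]
        simp
      rw [e]
      exact_mod_cast h.ne')
  else 1

lemma h22es_val_toGL {B : Matrix (Fin 2) (Fin 2) ℤ} (h : 0 < B.det) :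
    ((h22es_toGL B : GL (Fin 2) ℝ) : Matrix (Fin 2) (Fin 2) ℝ) = B.map (Int.castRingHom ℝ) := by
  unfold h22es_toGL
  rw [dif_pos h]
  rfl

lemma h22es_det_toGL {B : Matrix (Fin 2) (Fin 2) ℤ} (h : 0 < B.det) :
    (h22es_toGL B).val.det = ((B.det : ℤ) : ℝ) := by
  rw [h22es_val_toGL h, Matrix.det_fin_two, Matrix.det_fin_two]
  simp

lemma h22es_det_toGL_pos (B : Matrix (Fin 2) (Fin 2) ℤ) : 0 < (h22es_toGL B).val.det := by
  by_cases h : 0 < B.det
  · rw [h22es_det_toGL h]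
    exact_mod_cast h
  · unfold h22es_toGL
    rw [dif_neg h]
    simp

lemma h22es_val_mapGL (δ : SL(2, ℤ)) :
    ((Matrix.SpecialLinearGroup.mapGL ℝ δ : GL (Fin 2) ℝ) : Matrix (Fin 2) (Fin 2) ℝ) =
      (δ : Matrix (Fin 2) (Fin 2) ℤ).map (Int.castRingHom ℝ) := by
  ext a b
  simp

/-- an integral relation `B * γ = c * B'` holds in `GL₂(ℝ)`. -/
lemma h22es_toGL_mul {B B' : Matrix (Fin 2) (Fin 2) ℤ} (hB : 0 < B.det) (hB' : 0 < B'.det)
    (γ c : SL(2, ℤ))
    (h : B * (γ : Matrix (Fin 2) (Fin 2) ℤ) = (c : Matrix (Fin 2) (Fin 2) ℤ) * B') :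
    h22es_toGL B * Matrix.SpecialLinearGroup.mapGL ℝ γ =
      Matrix.SpecialLinearGroup.mapGL ℝ c * h22es_toGL B' := by
  apply Units.ext
  rw [Units.val_mul, Units.val_mul, h22es_val_toGL hB, h22es_val_toGL hB', h22es_val_mapGL,
    h22es_val_mapGL, ← Matrix.map_mul, ← Matrix.map_mul, h]

lemma h22es_toGL_smul {B B' : Matrix (Fin 2) (Fin 2) ℤ} (hB : 0 < B.det) (hB' : 0 < B'.det)
    (γ c : SL(2, ℤ))
    (h : B * (γ : Matrix (Fin 2) (Fin 2) ℤ) = (c : Matrix (Fin 2) (Fin 2) ℤ) * B') (τ : ℍ) :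
    h22es_toGL B • (γ • τ) = c • (h22es_toGL B' • τ) := by
  show h22es_toGL B • (Matrix.SpecialLinearGroup.mapGL ℝ γ • τ) =
    Matrix.SpecialLinearGroup.mapGL ℝ c • (h22es_toGL B' • τ)
  rw [← mul_smul, ← mul_smul, h22es_toGL_mul hB hB' γ c h]

/-- the candidate primitive of `∑ i, g ∣[2] β i`. -/
def h22es_dcPrim (M : ℕ) {I : Type} [Fintype I] (β : I → Matrix (Fin 2) (Fin 2) ℤ)
    (g : CuspForm (Gamma0 M) 2) : ℍ → ℂ :=
  fun τ => ∑ i, canonPrim M g (h22es_toGL (β i) • τ)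

lemma h22es_dcPrim_hasDerivAt (M : ℕ) [NeZero M] {I : Type} [Fintype I]
    (β : I → Matrix (Fin 2) (Fin 2) ℤ) (g : CuspForm (Gamma0 M) 2) (τ : ℍ) :
    HasDerivAt (h22es_dcPrim M β g ∘ ofComplex)
      (∑ i, (⇑g ∣[(2 : ℤ)] h22es_toGL (β i)) τ) (τ : ℂ) := by
  have h := HasDerivAt.sum (u := (Finset.univ : Finset I))
    (fun i _ => Fermat.Agent.Jac.h36_hasDerivAt_comp_smul M g (h22es_det_toGL_pos (β i)) τ)
  have e : (h22es_dcPrim M β g ∘ ofComplex) =
      ∑ i : I, ((fun z : ℍ => canonPrim M g (h22es_toGL (β i) • z)) ∘ ofComplex) := by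
    ext w
    simp [h22es_dcPrim]
  rw [e]
  exact h

/-- `∑ i, G ∘ β i` and the canonical primitive of `h = ∑ i, g ∣[2] β i` differ by a constant. -/
lemma h22es_dcPrim_eq (M N : ℕ) [NeZero M] [NeZero N] {I : Type} [Fintype I]
    (β : I → Matrix (Fin 2) (Fin 2) ℤ) (g : CuspForm (Gamma0 M) 2) (h : CuspForm (Gamma0 N) 2)
    (hsum : ∀ τ : ℍ, h τ = ∑ i, (⇑g ∣[(2 : ℤ)] h22es_toGL (β i)) τ) :
    ∃ C : ℂ, ∀ τ : ℍ, h22es_dcPrim M β g τ = canonPrim N h τ + C := by
  have hH : ∀ τ : ℍ, HasDerivAt (h22es_dcPrim M β g ∘ ofComplex) (h τ) (τ : ℂ) := by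
    intro τ
    rw [hsum τ]
    exact h22es_dcPrim_hasDerivAt M β g τ
  have hHm : MDiff (h22es_dcPrim M β g) :=
    fun τ => UpperHalfPlane.mdifferentiableAt_iff.mpr (hH τ).differentiableAt
  have hD : 𝔻 (h22es_dcPrim M β g - canonPrim N h) = 0 := by
    rw [Derivative.normalizedDerivOfComplex_sub _ _ hHm (canonPrim_mdiff N h)]
    ext τ
    rw [Pi.sub_apply, normalizedDeriv_eq_of_hasDerivAt (hH τ),
      normalizedDeriv_eq_of_hasDerivAt (canonPrim_hasDerivAt N h τ), sub_self]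
    rfl
  obtain ⟨C, hC⟩ := exists_const_of_normalizedDeriv_eq_zero (hHm.sub (canonPrim_mdiff N h)) hD
  refine ⟨C, fun τ => ?_⟩
  have := hC τ
  rw [Pi.sub_apply] at this
  rw [← this]
  ring

/-- **LR-ES, period theorem.**  The period map intertwines the double coset operator
`g ↦ ∑ i, g ∣[2] β i` on forms with the corresponding operator on homomorphisms. -/
theorem h22es_period_dc {M N : ℕ} [NeZero M] [NeZero N] {I : Type} [Fintype I]
    (β : I → Matrix (Fin 2) (Fin 2) ℤ) (hβ : ∀ i, 0 < (β i).det)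
    (g : CuspForm (Gamma0 M) 2) (h : CuspForm (Gamma0 N) 2)
    (hsum : ∀ τ : ℍ, h τ = ∑ i, (⇑g ∣[(2 : ℤ)] h22es_toGL (β i)) τ)
    (γ : Gamma0 N) (π : I → I) (hπ : Function.Bijective π) (c : I → Gamma0 M)
    (hdec : ∀ i, β i * ((γ : SL(2, ℤ)) : Matrix (Fin 2) (Fin 2) ℤ) =
      ((c i : SL(2, ℤ)) : Matrix (Fin 2) (Fin 2) ℤ) * β (π i)) :
    periodMap N h (Additive.ofMul γ) = ∑ i, periodMap M g (Additive.ofMul (c i)) := by
  obtain ⟨C, hC⟩ := h22es_dcPrim_eq M N β g h hsum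
  have h1 : periodMap N h (Additive.ofMul γ) =
      h22es_dcPrim M β g ((γ : SL(2, ℤ)) • UpperHalfPlane.I) -
        h22es_dcPrim M β g UpperHalfPlane.I := by
    rw [periodMap_apply N h γ UpperHalfPlane.I, hC, hC]
    ring
  rw [h1]
  simp only [h22es_dcPrim]
  have step : ∀ i : I,
      canonPrim M g (h22es_toGL (β i) • ((γ : SL(2, ℤ)) • UpperHalfPlane.I)) =
        periodMap M g (Additive.ofMul (c i)) +
          canonPrim M g (h22es_toGL (β (π i)) • UpperHalfPlane.I) := by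
    intro i
    rw [h22es_toGL_smul (hβ i) (hβ (π i)) _ _ (hdec i),
      periodMap_apply M g (c i) (h22es_toGL (β (π i)) • UpperHalfPlane.I)]
    ring
  simp_rw [step]
  rw [Finset.sum_add_distrib,
    Function.Bijective.sum_comp hπ (fun i => canonPrim M g (h22es_toGL (β i) • UpperHalfPlane.I))]
  ring

end

end Fermat.Agent.LR.ES
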