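import Fermat.Agent.LR.ES.Period
import Fermat.Agent.LR.CohDefs

/-!
# P-LR, LR-ES: the two traces `S₂(Γ₀(Nq)) → S₂(Γ₀(N))` (helper22), definitions

* `h22es_tr1 N q g = ∑ g ∣[2] δ`, `δ` running over `Γ₀(Nq) \ Γ₀(N)` (Mathlib's `CuspForm.trace`);
* `h22es_tr2 N q g = ∑ (g ∣[2] diag(1, q)) ∣[2] δ`, `δ` running over `up(Γ₀(Nq)) \ Γ₀(N)`
  (Mathlib's `CuspForm.trace` of the translate of `g` by `diag(1, q)`).

Both are `ℂ`-linear maps.
-/

set_option autoImplicit false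

open UpperHalfPlane hiding I
open scoped Manifold MatrixGroups ModularForm Pointwise
open ModularCurve ModularCurve.Period CongruenceSubgroup

namespace Fermat.Agent.LR.ES

noncomputable section

/-- two arithmetic subgroups have finite relative index. -/
lemma h22es_isFiniteRelIndex (𝒢 ℋ : Subgroup (GL (Fin 2) ℝ)) [𝒢.IsArithmetic] [ℋ.IsArithmetic] :
    𝒢.IsFiniteRelIndex ℋ :=
  ⟨((Subgroup.IsArithmetic.is_commensurable (𝒢 := 𝒢)).trans
    (Subgroup.IsArithmetic.is_commensurable (𝒢 := ℋ)).symm).1⟩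

/-- `Γ₀(M)` inside `GL₂(ℝ)`. -/
abbrev h22es_G (M : ℕ) : Subgroup (GL (Fin 2) ℝ) :=
  ((Gamma0 M : Subgroup SL(2, ℤ)) : Subgroup (GL (Fin 2) ℝ))

/-- the matrix `diag(1, q)` in `GL₂(ℚ)`. -/
def h22es_DQ (q : ℕ) : GL (Fin 2) ℚ :=
  if hq : q = 0 then 1 else
    Matrix.GeneralLinearGroup.mkOfDetNeZero !![(1 : ℚ), 0; 0, (q : ℚ)]
      (by rw [Matrix.det_fin_two_of]; simpa using hq)

/-- the matrix `diag(1, q)` in `GL₂(ℝ)`. -/
def h22es_D (q : ℕ) : GL (Fin 2) ℝ :=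
  Matrix.GeneralLinearGroup.map (Rat.castHom ℝ) (h22es_DQ q)

/-- the conjugate `diag(1,q)⁻¹ Γ₀(M) diag(1,q)`. -/
abbrev h22es_G2 (M q : ℕ) : Subgroup (GL (Fin 2) ℝ) :=
  ConjAct.toConjAct (h22es_D q)⁻¹ • h22es_G M

instance h22es_G2_arith (M q : ℕ) [NeZero M] : (h22es_G2 M q).IsArithmetic := by
  have h := Subgroup.IsArithmetic.conj (h22es_G M) (h22es_DQ q)⁻¹
  have e : (Matrix.GeneralLinearGroup.map (Rat.castHom ℝ)) (h22es_DQ q)⁻¹ = (h22es_D q)⁻¹ := by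
    rw [map_inv]
    rfl
  rw [e] at h
  exact h

instance h22es_fri1 (N q : ℕ) [NeZero N] [NeZero q] :
    (h22es_G (N * q)).IsFiniteRelIndex (h22es_G N) :=
  h22es_isFiniteRelIndex _ _

instance h22es_fri2 (N q : ℕ) [NeZero N] [NeZero q] :
    (h22es_G2 (N * q) q).IsFiniteRelIndex (h22es_G N) :=
  h22es_isFiniteRelIndex _ _

/-- the trace along `Γ₀(Nq) ≤ Γ₀(N)`, as a function. -/
def h22es_tr1Fun (N q : ℕ) [NeZero N] [NeZero q] (g : CuspForm (Gamma0 (N * q)) 2) :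
    CuspForm (Gamma0 N) 2 :=
  CuspForm.trace (h22es_G N) g

/-- the trace along `up : Γ₀(Nq) → Γ₀(N)` (conjugation by `diag(q, 1)`), as a function. -/
def h22es_tr2Fun (N q : ℕ) [NeZero N] [NeZero q] (g : CuspForm (Gamma0 (N * q)) 2) :
    CuspForm (Gamma0 N) 2 :=
  CuspForm.trace (h22es_G N) (CuspForm.translate g (h22es_D q))

end

end Fermat.Agent.LR.ES
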