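import Fermat.Agent.LR.ES.TraceDefs

/-!
# P-LR, LR-ES: Mathlib's trace as a sum over an arbitrary system of representatives (helper22)
-/

set_option autoImplicit false

open UpperHalfPlane hiding I
open scoped Manifold MatrixGroups ModularForm Pointwise
open ModularCurve ModularCurve.Period CongruenceSubgroup

namespace Fermat.Agent.LR.ES

noncomputable section

/-- `quotientFunc` only depends on the underlying function (additivity). -/
lemma h22es_quotientFunc_add {𝒢 ℋ : Subgroup (GL (Fin 2) ℝ)} {k : ℤ}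
    (f₁ f₂ f₃ : CuspForm 𝒢 k) (h : (⇑f₃ : ℍ → ℂ) = ⇑f₁ + ⇑f₂) (x : ℋ ⧸ (𝒢.subgroupOf ℋ)) :
    SlashInvariantForm.quotientFunc f₃ x =
      SlashInvariantForm.quotientFunc f₁ x + SlashInvariantForm.quotientFunc f₂ x := by
  induction x using Quotient.inductionOn with
  | h r =>
    simp only [SlashInvariantForm.quotientFunc_mk]
    rw [h, SlashAction.add_slash]

/-- `quotientFunc` only depends on the underlying function (scalars). -/
lemma h22es_quotientFunc_smul {𝒢 ℋ : Subgroup (GL (Fin 2) ℝ)} {k : ℤ}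
    (hℋ : ∀ x ∈ ℋ, 0 < (x : GL (Fin 2) ℝ).val.det)
    (c : ℂ) (f₁ f₃ : CuspForm 𝒢 k) (h : (⇑f₃ : ℍ → ℂ) = c • ⇑f₁) (x : ℋ ⧸ (𝒢.subgroupOf ℋ)) :
    SlashInvariantForm.quotientFunc f₃ x = c • SlashInvariantForm.quotientFunc f₁ x := by
  induction x using Quotient.inductionOn with
  | h r =>
    simp only [SlashInvariantForm.quotientFunc_mk]
    rw [h]
    have hpos : 0 < ((r : GL (Fin 2) ℝ)⁻¹).val.det := by
      have h1 := hℋ _ (inv_mem r.2)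
      exact h1
    exact Fermat.Agent.S22.smul_slash_of_det_pos hpos k c _

/-- **the trace on an arbitrary system of representatives.** -/
theorem h22es_trace_eq_sum {𝒢 ℋ : Subgroup (GL (Fin 2) ℝ)} [𝒢.IsFiniteRelIndex ℋ] {k : ℤ}
    (f : CuspForm 𝒢 k) {ι : Type} [Fintype ι] (r : ι → GL (Fin 2) ℝ) (hr : ∀ i, r i ∈ ℋ)
    (hinj : ∀ i j, r i * (r j)⁻¹ ∈ 𝒢 → i = j) (hsurj : ∀ x ∈ ℋ, ∃ i, x * (r i)⁻¹ ∈ 𝒢) :
    (⇑(CuspForm.trace ℋ f) : ℍ → ℂ) = ∑ i, (⇑f : ℍ → ℂ) ∣[k] r i := by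
  rw [CuspForm.coe_trace]
  set e : ι → ℋ ⧸ (𝒢.subgroupOf ℋ) :=
    fun i => ((⟨(r i)⁻¹, inv_mem (hr i)⟩ : ℋ) : ℋ ⧸ (𝒢.subgroupOf ℋ)) with he
  have hbij : Function.Bijective e := by
    constructor
    · intro i j hij
      have h1 : (⟨(r i)⁻¹, inv_mem (hr i)⟩ : ℋ)⁻¹ * ⟨(r j)⁻¹, inv_mem (hr j)⟩
          ∈ 𝒢.subgroupOf ℋ := QuotientGroup.eq.mp hij
      rw [Subgroup.mem_subgroupOf] at h1
      have h2 : r i * (r j)⁻¹ ∈ 𝒢 := by
        simpa using h1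
      exact hinj i j h2
    · intro x
      induction x using Quotient.inductionOn with
      | h y =>
        obtain ⟨i, hi⟩ := hsurj (y : GL (Fin 2) ℝ)⁻¹ (inv_mem y.2)
        refine ⟨i, ?_⟩
        symm
        apply QuotientGroup.eq.mpr
        rw [Subgroup.mem_subgroupOf]
        simpa using hi
  let _inst : Fintype (ℋ ⧸ (𝒢.subgroupOf ℋ)) := Fintype.ofFinite _
  have hsum : (∑ q : ℋ ⧸ (𝒢.subgroupOf ℋ), SlashInvariantForm.quotientFunc f q) =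
      ∑ i, SlashInvariantForm.quotientFunc f (e i) :=
    (Function.Bijective.sum_comp hbij (fun q => SlashInvariantForm.quotientFunc f q)).symm
  refine Eq.trans ?_ (Eq.trans hsum ?_)
  · rfl
  refine Finset.sum_congr rfl fun i _ => ?_
  show SlashInvariantForm.quotientFunc f
    ((⟨(r i)⁻¹, inv_mem (hr i)⟩ : ℋ) : ℋ ⧸ (𝒢.subgroupOf ℋ)) = _
  have := SlashInvariantForm.quotientFunc_mk (𝒢 := 𝒢) (ℋ := ℋ) f ⟨(r i)⁻¹, inv_mem (hr i)⟩
  rw [show ((⟨(r i)⁻¹, inv_mem (hr i)⟩ : ℋ) : ℋ ⧸ (𝒢.subgroupOf ℋ)) =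
    (⟦⟨(r i)⁻¹, inv_mem (hr i)⟩⟧ : ℋ ⧸ (𝒢.subgroupOf ℋ)) from rfl, this]
  simp

end

end Fermat.Agent.LR.ES
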