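import Fermat.Agent.LR.ES.Trace
import Fermat.Agent.LR.CohReps
import Fermat.Agent.LR.New.H7New

/-!
# P-LR, LR-ES: `U_q² = 1` on forms killed by both traces (helper22)

On helper17's explicit systems of representatives (`h17lr_rho`, `h17lr_tau`) the two traces read

* `tr₂ g = g ∣[2] W + U_q g`,
* `tr₁ g = g + U_q (g ∣[2] W)`,

with `W = diag(1, q) · [[q x, y], [N, 1]] = [[q x, y], [N q, q]]`, `q x - N y = 1`.  Hence
`tr₁ g = 0 = tr₂ g` implies `U_q (U_q g) = g` (`h7new_U2_of_traces`, helper7).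
-/

set_option autoImplicit false

open UpperHalfPlane hiding I
open scoped Manifold MatrixGroups ModularForm Pointwise
open ModularCurve ModularCurve.Period CongruenceSubgroup
open Fermat.Agent.LR Fermat.Agent.Jac

namespace Fermat.Agent.LR.ES

noncomputable section

/-- in weight two the slash action does not see positive scalar factors. -/
lemma h22es_slash_eq_of_val_smul (f : ℍ → ℂ) {A B : GL (Fin 2) ℝ} {c : ℝ} (hc : 0 < c)
    (hA : 0 < A.val.det)
    (hAB : (B : Matrix (Fin 2) (Fin 2) ℝ) = c • (A : Matrix (Fin 2) (Fin 2) ℝ)) :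
    f ∣[(2 : ℤ)] B = f ∣[(2 : ℤ)] A := by
  have hdetB : B.val.det = c ^ 2 * A.val.det := by
    rw [hAB, Matrix.det_smul]
    simp
  have hB : 0 < B.val.det := by
    rw [hdetB]; positivity
  have hB' : 0 < B.det.val := by
    rw [Matrix.GeneralLinearGroup.val_det_apply]; exact hB
  have hA' : 0 < A.det.val := by
    rw [Matrix.GeneralLinearGroup.val_det_apply]; exact hA
  have e00 : B 0 0 = c * A 0 0 := by
    have := congrFun (congrFun hAB 0) 0; simpa using this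
  have e01 : B 0 1 = c * A 0 1 := by
    have := congrFun (congrFun hAB 0) 1; simpa using this
  have e10 : B 1 0 = c * A 1 0 := by
    have := congrFun (congrFun hAB 1) 0; simpa using this
  have e11 : B 1 1 = c * A 1 1 := by
    have := congrFun (congrFun hAB 1) 1; simpa using this
  have hcC : (c : ℂ) ≠ 0 := by exact_mod_cast hc.ne'
  ext τ
  have hden : denom B τ = c * denom A τ := by
    simp only [denom, e10, e11]
    push_cast
    ring
  have hnum : num B τ = c * num A τ := by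
    simp only [num, e00, e01]
    push_cast
    ring
  have hsmul : B • τ = A • τ := by
    apply UpperHalfPlane.ext
    rw [coe_smul_of_det_pos hB', coe_smul_of_det_pos hA', hden, hnum]
    field_simp
  rw [ModularForm.slash_apply, ModularForm.slash_apply, hsmul,
    Fermat.Agent.S22.σ_eq_of_det_pos hB, Fermat.Agent.S22.σ_eq_of_det_pos hA, hden,
    Matrix.GeneralLinearGroup.val_det_apply, Matrix.GeneralLinearGroup.val_det_apply, hdetB,
    abs_of_pos (by positivity : 0 < c ^ 2 * A.val.det), abs_of_pos hA]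
  have hdA : denom A τ ≠ 0 := denom_ne_zero A τ
  simp only [show (2 : ℤ) - 1 = 1 by norm_num, zpow_one]
  rw [mul_zpow]
  push_cast
  rw [zpow_neg, zpow_neg]
  have h2 : ((c : ℂ) ^ (2 : ℤ)) = (c : ℂ) ^ 2 := by norm_cast
  rw [h2]
  field_simp

/-- the Atkin-Lehner matrix `W = diag(1, q) · V`, `V = [[q x, y], [N, 1]]`. -/
def h22es_W (N q : ℕ) (x y : ℤ) (hxy : (q : ℤ) * x - N * y = 1) : GL (Fin 2) ℝ :=
  h22es_D q * Matrix.SpecialLinearGroup.mapGL ℝ ((h17lr_V N q x y hxy : Gamma0 N) : SL(2, ℤ))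

lemma h22es_val_W (N q : ℕ) [NeZero q] (x y : ℤ) (hxy : (q : ℤ) * x - N * y = 1) :
    ((h22es_W N q x y hxy : GL (Fin 2) ℝ) : Matrix (Fin 2) (Fin 2) ℝ) =
      !![(q : ℝ) * x, (y : ℝ); (q : ℝ) * N, (q : ℝ)] := by
  unfold h22es_W
  rw [Units.val_mul, h22es_val_D (NeZero.ne q), h22es_val_mapGL, h17lr_V, h17_mk_coe]
  ext a b
  fin_cases a <;> fin_cases b <;> simp [Matrix.mul_apply, Fin.sum_univ_two]

/-- `diag(1, q) · τ_j = δ_j` for `j < q`. -/
lemma h22es_D_mul_tau (N q : ℕ) [NeZero q] (x y : ℤ) (hxy : (q : ℤ) * x - N * y = 1)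
    (j : Fin q) :
    h22es_D q * Matrix.SpecialLinearGroup.mapGL ℝ
        ((h17lr_tau N q x y hxy (Fin.castSucc j) : Gamma0 N) : SL(2, ℤ)) =
      ModularForm.heckeMatrix q (j : ℕ) := by
  apply Units.ext
  have hj : ((Fin.castSucc j : Fin (q + 1)) : ℕ) < q := by simp
  rw [Units.val_mul, h22es_val_D (NeZero.ne q), h22es_val_mapGL,
    ModularForm.val_heckeMatrix (NeZero.ne q), h17lr_tau, if_pos hj, h17_mk_coe]
  ext a b
  fin_cases a <;> fin_cases b <;> simp [Matrix.mul_apply, Fin.sum_univ_two]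

lemma h22es_tau_last (N q : ℕ) (x y : ℤ) (hxy : (q : ℤ) * x - N * y = 1) :
    h17lr_tau N q x y hxy (Fin.last q) = h17lr_V N q x y hxy := by
  rw [h17lr_tau, if_neg (by simp)]

lemma h22es_rho_last (N q : ℕ) (x y : ℤ) (hxy : (q : ℤ) * x - N * y = 1) :
    h17lr_rho N q x y hxy (Fin.last q) = 1 := by
  rw [h17lr_rho, if_neg (by simp)]

/-- `W · δ_j = q · ρ_j` for `j < q`. -/
lemma h22es_W_mul_delta (N q : ℕ) [NeZero q] (x y : ℤ) (hxy : (q : ℤ) * x - N * y = 1)
    (j : Fin q) :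
    ((h22es_W N q x y hxy * ModularForm.heckeMatrix q (j : ℕ) : GL (Fin 2) ℝ) :
        Matrix (Fin 2) (Fin 2) ℝ) =
      (q : ℝ) • ((Matrix.SpecialLinearGroup.mapGL ℝ
        ((h17lr_rho N q x y hxy (Fin.castSucc j) : Gamma0 N) : SL(2, ℤ)) : GL (Fin 2) ℝ) :
          Matrix (Fin 2) (Fin 2) ℝ) := by
  have hj : ((Fin.castSucc j : Fin (q + 1)) : ℕ) < q := by simp
  rw [Units.val_mul, h22es_val_W, ModularForm.val_heckeMatrix (NeZero.ne q), h22es_val_mapGL,
    h17lr_rho, if_pos hj, h17_mk_coe]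
  ext a b
  fin_cases a <;> fin_cases b <;> simp [Matrix.mul_apply, Fin.sum_univ_two] <;> ring

/-- **`tr₂ g = g ∣ W + U_q g`.** -/
theorem h22es_tr2_explicit (N q : ℕ) [NeZero N] [NeZero q] (hq : q.Prime) (hqN : ¬ q ∣ N)
    (x y : ℤ) (hxy : (q : ℤ) * x - N * y = 1) (g : CuspForm (Gamma0 (N * q)) 2) :
    (⇑(h22es_tr2 N q g) : ℍ → ℂ) =
      (⇑g : ℍ → ℂ) ∣[(2 : ℤ)] h22es_W N q x y hxy + ModularForm.heckeU 2 q ⇑g := by
  rw [h22es_tr2_eq_sum N q g (h17lr_tau N q x y hxy) (h17lr_isReps_tau hq hqN x y hxy),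
    Fin.sum_univ_castSucc, add_comm, ModularForm.heckeU_def, Finset.sum_range]
  congr 1
  · rw [h22es_tau_last, ← SlashAction.slash_mul]
    rfl
  · refine Finset.sum_congr rfl fun j _ => ?_
    rw [← SlashAction.slash_mul, h22es_D_mul_tau]

/-- **`tr₁ g = g + U_q (g ∣ W)`.** -/
theorem h22es_tr1_explicit (N q : ℕ) [NeZero N] [NeZero q] (hq : q.Prime) (hqN : ¬ q ∣ N)
    (x y : ℤ) (hxy : (q : ℤ) * x - N * y = 1) (g : CuspForm (Gamma0 (N * q)) 2) :
    (⇑(h22es_tr1 N q g) : ℍ → ℂ) =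
      ⇑g + ModularForm.heckeU 2 q ((⇑g : ℍ → ℂ) ∣[(2 : ℤ)] h22es_W N q x y hxy) := by
  rw [h22es_tr1_eq_sum N q g (h17lr_rho N q x y hxy) (h17lr_isReps_rho hq hqN x y hxy),
    Fin.sum_univ_castSucc, add_comm, ModularForm.heckeU_def, Finset.sum_range]
  congr 1
  · rw [h22es_rho_last]
    have : Matrix.SpecialLinearGroup.mapGL ℝ (((1 : Gamma0 N)) : SL(2, ℤ)) = 1 := by
      simp
    rw [this, SlashAction.slash_one]
  · refine Finset.sum_congr rfl fun j _ => ?_
    rw [← SlashAction.slash_mul]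
    symm
    refine h22es_slash_eq_of_val_smul _ (c := (q : ℝ)) ?_ ?_ (h22es_W_mul_delta N q x y hxy j)
    · exact_mod_cast Nat.pos_of_ne_zero (NeZero.ne q)
    · rw [h22es_det_mapGL]
      exact one_pos

/-- **`U_q² = 1` on forms killed by both traces.** -/
theorem h22es_U2_of_traces (N q : ℕ) [NeZero N] [NeZero q] (hq : q.Prime) (hqN : ¬ q ∣ N)
    (g : CuspForm (Gamma0 (N * q)) 2) (h1 : h22es_tr1 N q g = 0) (h2 : h22es_tr2 N q g = 0) :
    CuspForm.heckeULin 2 (dvd_mul_left q N) (CuspForm.heckeULin 2 (dvd_mul_left q N) g) = g := by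
  obtain ⟨x, y, hxy⟩ := h17lr_exists_bezout hq hqN
  refine h7new_U2_of_traces (dvd_mul_left q N) g ((⇑g : ℍ → ℂ) ∣[(2 : ℤ)] h22es_W N q x y hxy)
    ?_ ?_
  · rw [← h22es_tr2_explicit N q hq hqN x y hxy g, h2]
    rfl
  · rw [← h22es_tr1_explicit N q hq hqN x y hxy g, h1]
    rfl

end

end Fermat.Agent.LR.ES
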